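/-
S17 / Part G: generalised rigidity (a divisor class over `K₁` one of whose nonzero multiples is defined over
`K₀` is itself defined over `K₀`).  The proof is the one of `Fermat.Agent.S27.rigidity` (helper78), whose key
lemma `Rigidity.support_const` is already general enough.
-/
import Fermat.Agent.S27.C.Rigidity

set_option autoImplicit false

namespace Fermat.Agent.S17.G

open AlgebraicCurve Fermat.Agent.S26 Fermat.Agent.S27 IntermediateField

variable {K₀ F₀ : Type*} {K₁ F₁ : Type*} [Field K₀] [Field F₀] [Field K₁] [Field F₁]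
    [Algebra K₀ F₀] [Algebra K₁ F₁] [Algebra K₀ K₁] [Algebra F₀ F₁] [Algebra K₀ F₁]
    [IsScalarTower K₀ K₁ F₁] [IsScalarTower K₀ F₀ F₁]
    [IsAlgClosed K₀] [CharZero K₀] [IsAlgClosed K₁] [FF1 K₀ F₀] [IsConstExt K₀ F₀ K₁ F₁]

open Fermat.Agent.S27.Rigidity in
/-- **Generalised rigidity**: a class of `Pic⁰(F₁)` with a nonzero multiple defined over `K₀` is defined
over `K₀`.  (Same proof as `Fermat.Agent.S27.rigidity`, by helper78.) -/
theorem rigidity_gen (D₁ : Divisor K₁ F₁) (hdeg : Divisor.degree D₁ = 0) (n : ℕ) (hn : 0 < n)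
    (D' : Divisor K₀ F₀) (hD₁ : Divisor.IsPrincipal ((n : ℤ) • D₁ - extDiv K₁ F₁ D')) :
    ∃ D₀ : Divisor K₀ F₀, Divisor.degree D₀ = 0 ∧ Divisor.IsPrincipal (D₁ - extDiv K₁ F₁ D₀) := by
  classical
  have : CharZero K₁ := charZero_of_isConstExt (K₀ := K₀) K₁
  have : FF1 K₁ F₁ := ff1_of_isConstExt' (K₀ := K₀) (F₀ := F₀) K₁ F₁
  by_cases hprin : Divisor.IsPrincipal D₁
  · exact ⟨0, map_zero _, by simpa using hprin⟩
  obtain ⟨x, hx⟩ := Fermat.Agent.S27.exists_transcendental K₀ F₀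
  set x₁ := algebraMap F₀ F₁ x with hx₁
  have hx₁t : Transcendental K₁ x₁ := transcendental_map K₁ F₁ hx
  have hL : LSpace D₁ = ⊥ := by
    rw [eq_bot_iff]
    intro f hf
    rw [Submodule.mem_bot]
    by_contra hf0
    have h1 := divisorOf_eq_neg_of_mem_LSpace hdeg hf0 hf
    apply hprin
    refine ⟨f⁻¹, inv_ne_zero hf0, fun v => ?_⟩
    have h2 := DFunLike.congr_fun h1 v
    rw [divisorOf_apply, Finsupp.neg_apply] at h2
    rw [v.ord_inv]
    omega
  have hrr := riemann_roch hx₁t D₁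
  rw [hL, finrank_bot, hdeg] at hrr
  obtain ⟨R, -, hRT, hRΩ⟩ := exists_points_Omega_eq_bot hx₁t D₁ _
    (infinite_range_extPlace (K₀ := K₀) (F₀ := F₀) K₁ F₁) _ rfl
  obtain ⟨P₀⟩ := nonempty_place (Ω := K₀) (𝕃 := F₀)
  set C : Divisor K₁ F₁ := sumDiv R + Finsupp.single (extPlace K₁ F₁ P₀) 1 with hC
  have hCsupp : ∀ Q, C Q ≠ 0 → Q ∈ Set.range (extPlace K₁ F₁ : Place K₀ F₀ → _) := by
    intro Q hQ
    by_contra hQr
    apply hQ
    rw [hC, Finsupp.add_apply, sumDiv, Finsupp.finsetSum_apply, Finsupp.single_apply,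
      if_neg (fun h : extPlace K₁ F₁ P₀ = Q => hQr ⟨P₀, h⟩), add_zero]
    refine Finset.sum_eq_zero fun i _ => ?_
    rw [Finsupp.single_apply, if_neg (fun h : R i = Q => hQr (h ▸ hRT i))]
  obtain ⟨C₀, hC₀⟩ := exists_eq_extDiv C hCsupp
  have hCdeg : Divisor.degree C = genusFF K₁ F₁ := by
    rw [hC, map_add, degree_sumDiv, Divisor.degree_single, deg_eq_one, Fintype.card_fin]
    push_cast at hrr ⊢
    omega
  set D2 : Divisor K₁ F₁ := D₁ + C with hD2
  have hD2Ω : Omega x₁ D2 = ⊥ := by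
    rw [eq_bot_iff, ← hRΩ]
    apply Omega_anti
    intro v
    rw [hD2, hC, ← add_assoc, Finsupp.add_apply (D₁ + sumDiv R), Finsupp.single_apply]
    split_ifs <;> omega
  have hD2deg : Divisor.degree D2 = genusFF K₁ F₁ := by rw [hD2, map_add, hdeg, hCdeg, zero_add]
  have hrr' := riemann_roch hx₁t D2
  rw [hD2Ω, finrank_bot, hD2deg] at hrr'
  obtain ⟨f₁, hf₁0, hf₁⟩ := Riemann.exists_ne_zero_mem_LSpace (D := D2) (by
    push_cast at hrr'
    omega)
  set E : Divisor K₁ F₁ := D2 + divisorOf f₁ with hE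
  have hEv : ∀ v, E v = D2 v + v.ord f₁ := fun v => by
    rw [hE, Finsupp.add_apply, divisorOf_apply]
  have hE0 : ∀ v, 0 ≤ E v := fun v => by
    have := (hf₁.resolve_left hf₁0) v
    rw [hEv]
    omega
  have hEdeg : Divisor.degree E = genusFF K₁ F₁ := by
    rw [hE, map_add, degree_divisorOf, add_zero, hD2deg]
  have hEΩ : Omega x₁ E = ⊥ := by
    rw [eq_bot_iff]
    intro ω hω
    rw [Submodule.mem_bot]
    by_contra hω0
    have h1 := (mem_Omega.1 hω).resolve_left hω0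
    have h2 : ω / f₁ ∈ Omega x₁ D2 := by
      refine Or.inr fun v => ?_
      have := h1 v
      rw [hEv] at this
      rw [Fermat.Agent.S24.FF.ord_div v hω0 hf₁0]
      omega
    rw [hD2Ω, Submodule.mem_bot] at h2
    exact div_ne_zero hω0 hf₁0 h2
  obtain ⟨h, hh0, hhv⟩ := hD₁
  have hsupp := support_const hx hEΩ hEdeg hE0 hn (f := h * f₁ ^ n)
    (mul_ne_zero hh0 (pow_ne_zero _ hf₁0)) (fun Q hQ => by
      have hCQ : C Q = 0 := by
        by_contra hne
        exact hQ (hCsupp Q hne)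
      rw [Q.ord_mul hh0 (pow_ne_zero _ hf₁0), Fermat.Agent.S24.FF.ord_pow, ← hhv Q, hEv, hD2,
        Finsupp.add_apply, hCQ, Finsupp.sub_apply, extDiv_apply_of_not_ext _ hQ,
        Finsupp.smul_apply, smul_eq_mul]
      ring)
  obtain ⟨E₀, hE₀⟩ := exists_eq_extDiv E hsupp
  refine ⟨E₀ - C₀, ?_, ?_⟩
  · rw [← degree_extDiv (K₁ := K₁) (F₁ := F₁), map_sub, ← hE₀, ← hC₀, map_sub, hEdeg, hCdeg, sub_self]
  · refine ⟨f₁⁻¹, inv_ne_zero hf₁0, fun v => ?_⟩
    rw [map_sub, ← hE₀, ← hC₀, v.ord_inv, Finsupp.sub_apply, Finsupp.sub_apply, hEv, hD2,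
      Finsupp.add_apply]
    ring

end Fermat.Agent.S17.G
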