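/-
S17 / Parts F + G: finiteness of the 2-torsion and divisibility of `Pic⁰` over `ℚ̄`, deduced from the
S27 project (complex uniformisation of `Pic⁰`, constant field extensions, rigidity).
-/
import Fermat.Agent.S27.Final
import Fermat.Agent.S17.Curve.Base
import Fermat.Agent.S17.G.Rigidity

set_option autoImplicit false

namespace Fermat.Agent.S17.G

open AlgebraicCurve Fermat.Agent.S26 Fermat.Agent.S27 IntermediateField
open scoped IntermediateField.algebraAdjoinAdjoin

/-! ### Divisibility over `ℂ`: the exponential map of S27/B is surjective -/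

/-- `Pic⁰` of a complex function field is divisible (by-product of the proof of
`Fermat.Agent.S27.card_torsion_complex`, helper49 / helper27). -/
theorem divisible_complex' (F : Type*) [Field F] [Algebra ℂ F] [FF1 ℂ F] (n : ℕ) (hn : 0 < n)
    (z : Pic0 ℂ F) : ∃ y : Pic0 ℂ F, n • y = z := by
  classical
  rcases Nat.eq_zero_or_pos (genusFF ℂ F) with hg | hg
  · have htriv : ∀ z : Pic0 ℂ F, z = 0 := by
      intro z
      obtain ⟨D, rfl⟩ := Pic0.mk_surjective z
      have h := isPrincipal_of_genus_zero hg D.1 D.2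
      exact (QuotientAddGroup.eq_zero_iff D).mpr (AddSubgroup.mem_addSubgroupOf.mpr h)
    exact ⟨0, by rw [smul_zero, htriv z]⟩
  · obtain ⟨B⟩ := exists_holBasis F
    obtain ⟨φ, -, hchart⟩ := exists_exp hg B
    obtain ⟨P₀⟩ : Nonempty (Place ℂ F) := (infinite_place (K := ℂ) (F := F)).nonempty
    have hb : {Q : Place ℂ F | pq Q P₀ ∈ Set.range φ} = Set.univ := by
      refine connected_places _ (fun c τ hτ => ?_) ⟨P₀, 0, by simp⟩
      have h1 : pq (c.pt τ) P₀ = φ (c.abel B τ) + pq (c.pt 0) P₀ := by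
        rw [hchart c τ hτ, pq_add_pq]
      constructor
      · rintro ⟨v, hv⟩
        refine ⟨v - c.abel B τ, ?_⟩
        rw [map_sub, hv, h1]
        abel
      · rintro ⟨v, hv⟩
        refine ⟨c.abel B τ + v, ?_⟩
        rw [map_add, hv, h1]
    have ha : ∀ Q : Place ℂ F, ∃ v, φ v = pq Q P₀ := by
      intro Q
      have : Q ∈ {Q : Place ℂ F | pq Q P₀ ∈ Set.range φ} := by rw [hb]; trivial
      exact this
    choose a ha using ha
    obtain ⟨Q, rfl⟩ := exists_eq_sum_pq P₀ z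
    refine ⟨φ ((n : ℂ)⁻¹ • ∑ i, a (Q i)), ?_⟩
    rw [← map_nsmul, ← Nat.cast_smul_eq_nsmul ℂ, smul_smul,
      mul_inv_cancel₀ (by exact_mod_cast hn.ne'), one_smul, map_sum]
    exact Finset.sum_congr rfl fun i _ => ha (Q i)

/-! ### General consequences -/

theorem mk_eq_mk_iff {K F : Type*} [Field K] [Field F] [Algebra K F]
    (D E : Divisor.degZero (K := K) (F := F)) :
    Pic0.mk D = Pic0.mk E ↔ Divisor.IsPrincipal ((E : Divisor K F) - (D : Divisor K F)) := by
  unfold Pic0.mk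
  rw [QuotientAddGroup.eq, AddSubgroup.mem_addSubgroupOf, Divisor.mem_principal]
  have : ((-D + E : Divisor.degZero (K := K) (F := F)) : Divisor K F) =
      (E : Divisor K F) - (D : Divisor K F) := by
    push_cast
    abel
  rw [this]

theorem exists_nsmul_eq_mk_iff {K F : Type*} [Field K] [Field F] [Algebra K F] (n : ℕ)
    (D : Divisor.degZero (K := K) (F := F)) :
    (∃ y : Pic0 K F, n • y = Pic0.mk D) ↔ ∃ D₀ : Divisor K F, Divisor.degree D₀ = 0 ∧
      Divisor.IsPrincipal ((n : ℤ) • D₀ - (D : Divisor K F)) := by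
  constructor
  · rintro ⟨y, hy⟩
    obtain ⟨D₀, rfl⟩ := Pic0.mk_surjective y
    refine ⟨D₀, D₀.2, ?_⟩
    have h2 : Pic0.mk D = Pic0.mk (n • D₀) := hy.symm
    rw [mk_eq_mk_iff] at h2
    rw [natCast_zsmul]
    exact h2
  · rintro ⟨D₀, hD₀, h⟩
    refine ⟨Pic0.mk ⟨D₀, hD₀⟩, ?_⟩
    have h3 : n • Pic0.mk (⟨D₀, hD₀⟩ : Divisor.degZero (K := K) (F := F)) =
      Pic0.mk (n • (⟨D₀, hD₀⟩ : Divisor.degZero (K := K) (F := F))) := rfl
    rw [h3, eq_comm, mk_eq_mk_iff]
    rw [natCast_zsmul] at h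
    exact h

section Descent

variable (K₀ F₀ : Type*) (K₁ F₁ : Type*) [Field K₀] [Field F₀] [Field K₁] [Field F₁]
    [Algebra K₀ F₀] [Algebra K₁ F₁] [Algebra K₀ K₁] [Algebra F₀ F₁] [Algebra K₀ F₁]
    [IsScalarTower K₀ K₁ F₁] [IsScalarTower K₀ F₀ F₁]
    [IsAlgClosed K₀] [CharZero K₀] [IsAlgClosed K₁] [FF1 K₀ F₀] [IsConstExt K₀ F₀ K₁ F₁]

/-- divisibility descends along constant field extensions -/
theorem divisible_descent (n : ℕ) (hn : 0 < n) (h : ∀ z : Pic0 K₁ F₁, ∃ y : Pic0 K₁ F₁, n • y = z)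
    (x : Pic0 K₀ F₀) : ∃ y : Pic0 K₀ F₀, n • y = x := by
  obtain ⟨D, rfl⟩ := Pic0.mk_surjective x
  have hD : Divisor.degree (D : Divisor K₀ F₀) = 0 := D.2
  have hE : extDiv K₁ F₁ (D : Divisor K₀ F₀) ∈ Divisor.degZero (K := K₁) (F := F₁) := by
    rw [Divisor.mem_degZero, degree_extDiv, hD]
  obtain ⟨D₁, hD₁, h1⟩ := (exists_nsmul_eq_mk_iff n ⟨_, hE⟩).mp (h _)
  obtain ⟨D₀, hD₀, hprin⟩ := rigidity_gen D₁ hD₁ n hn (D : Divisor K₀ F₀) h1
  rw [exists_nsmul_eq_mk_iff]
  refine ⟨D₀, hD₀, ?_⟩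
  apply isPrincipal_of_extDiv (K₁ := K₁) (F₁ := F₁)
  · rw [map_sub, map_zsmul, hD, hD₀, smul_zero, sub_zero]
  · have h4 : Divisor.IsPrincipal ((n : ℤ) • (D₁ - extDiv K₁ F₁ D₀)) :=
      (Divisor.principal (K := K₁) (F := F₁)).zsmul_mem hprin n
    have h5 := (Divisor.principal (K := K₁) (F := F₁)).sub_mem h1 h4
    have h6 : extDiv K₁ F₁ ((n : ℤ) • D₀ - (D : Divisor K₀ F₀)) =
        ((n : ℤ) • D₁ - extDiv K₁ F₁ (D : Divisor K₀ F₀)) -
          (n : ℤ) • (D₁ - extDiv K₁ F₁ D₀) := by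
      rw [map_sub, map_zsmul, smul_sub]
      abel
    rw [h6]
    exact h5

end Descent

/-- `Pic⁰` of a function field over an algebraically closed subfield of `ℂ` is divisible. -/
theorem pic0_divisible (K F : Type*) [Field K] [Field F] [Algebra K F] [IsAlgClosed K] [CharZero K]
    [FF1 K F] (j : K →+* ℂ) (n : ℕ) (hn : 0 < n) (x : Pic0 K F) : ∃ y : Pic0 K F, n • y = x := by
  let _ : Algebra K ℂ := j.toAlgebra
  obtain ⟨F₁, _, _, _, _, _, _, hce⟩ := exists_constExt K F ℂ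
  have : FF1 ℂ F₁ := ff1_of_isConstExt K F ℂ F₁
  exact divisible_descent K F ℂ F₁ n hn (divisible_complex' F₁ n hn) x

theorem finite_torsion (K F : Type*) [Field K] [Field F] [Algebra K F] [IsAlgClosed K] [CharZero K]
    [FF1 K F] (n : ℕ) (hn : 0 < n) : {y : Pic0 K F | n • y = 0}.Finite := by
  have h1 := card_torsion_of_ff1 K F n hn
  have h2 : Nat.card (Pic0.torsion K F n) ≠ 0 := by
    rw [h1]
    exact pow_ne_zero _ hn.ne'
  have h3 : Finite (Pic0.torsion K F n) := Nat.finite_of_card_ne_zero h2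
  have h4 : {y : Pic0 K F | n • y = 0} = (Pic0.torsion K F n : Set (Pic0 K F)) := by
    ext y
    simp only [Set.mem_ofPred_eq, SetLike.mem_coe, Pic0.mem_torsion, natCast_zsmul]
  rw [h4]
  exact Set.toFinite _

/-- `IsFF` (finite over a rational function field) implies `FF1`. -/
theorem ff1_of_isFF (K F : Type*) [Field K] [Field F] [Algebra K F] [FF.IsFF K F] : FF1 K F := by
  obtain ⟨y, hy, hfin⟩ := FF.IsFF.exists_gen (K := K) (F := F)
  refine ⟨?_, ?_⟩
  · have h1 : Algebra.EssFiniteType K K⟮y⟯ :=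
      IntermediateField.essFiniteType_iff.mpr
        (IntermediateField.fg_adjoin_of_finite (Set.finite_singleton y))
    exact Algebra.EssFiniteType.comp K K⟮y⟯ F
  · have hb : IsTranscendenceBasis K (fun _ : Unit => y) := by
      rw [isTranscendenceBasis_iff_algebraicIndependent_isAlgebraic]
      refine ⟨algebraicIndependent_unique_type_iff.mpr hy, ?_⟩
      have h2 : Set.range (fun _ : Unit => y) = {y} := by simp
      rw [h2]
      have h3 : Algebra.IsAlgebraic K⟮y⟯ F := Algebra.IsAlgebraic.of_finite _ _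
      exact (IsFractionRing.comap_isAlgebraic_iff (A := Algebra.adjoin K {y}) (K := K⟮y⟯)
        (C := F)).mpr h3
    have := hb.lift_cardinalMk_eq_trdeg
    simpa using this.symm

/-! ### The statements for `J₀(N)` -/

open ModularCurve

theorem h2fin (N : ℕ) [NeZero N] : {y : JZero N | 2 • y = 0}.Finite := by
  have : FF1 (AlgebraicClosure ℚ) (modularFunctionFieldBar N) :=
    ff1_of_isFF _ (FL (AlgebraicClosure ℚ) N)
  exact finite_torsion _ _ 2 (by norm_num)

theorem hdiv (N : ℕ) [NeZero N] (x : JZero N) : ∃ y : JZero N, 2 • y = x := by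
  have : FF1 (AlgebraicClosure ℚ) (modularFunctionFieldBar N) :=
    ff1_of_isFF _ (FL (AlgebraicClosure ℚ) N)
  have halg : Algebra.IsAlgebraic ℚ (AlgebraicClosure ℚ) :=
    (inferInstance : @Algebra.IsAlgebraic ℚ (AlgebraicClosure ℚ) _ _
      (AlgebraicClosure.instAlgebra ℚ))
  exact pic0_divisible _ _
    ((IsAlgClosed.lift : AlgebraicClosure ℚ →ₐ[ℚ] ℂ) : AlgebraicClosure ℚ →+* ℂ) 2 (by norm_num) x

end Fermat.Agent.S17.G
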