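import Fermat.Agent.S17.G.Aut
import Fermat.Agent.S17.C.AbsDefs

/-!
# S17 / G : the image `kC` of `ℚ̄` in `ℂ`
-/

set_option autoImplicit false

open IntermediateField

namespace Fermat.Agent.S17.G

/-- the image of `ℚ̄` in `ℂ` -/
noncomputable def kC : IntermediateField ℚ ℂ :=
  { embC.fieldRange with
    algebraMap_mem' := fun r => ⟨(r : Kb), by simp⟩ }

theorem mem_kC_iff (a : ℂ) : a ∈ kC ↔ a ∈ Set.range embC := Iff.rfl

instance countable_kC : Countable kC := by
  have h1 : Countable Kb := by
    rw [← Cardinal.mk_le_aleph0_iff]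
    have hcl : IsAlgClosure ℚ Kb :=
      (inferInstance : @IsAlgClosure ℚ (AlgebraicClosure ℚ) _ _ (AlgebraicClosure.instAlgebra ℚ) _)
    have := hcl.isAlgebraic
    have := Algebra.IsAlgebraic.cardinalMk_le_max ℚ Kb
    simpa using this
  have h2 : (Set.range embC).Countable := Set.countable_range _
  exact Set.countable_coe_iff.mpr h2

/-- `kC` is algebraically closed in `ℂ` -/
theorem mem_kC_of_isAlgebraic {a : ℂ} (h : IsAlgebraic kC a) : a ∈ kC := by
  obtain ⟨p, hp0, hpa⟩ := h
  -- transport the polynomial to `Kb`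
  have hlift : ∀ x : kC, ∃ y : Kb, embC y = x := fun x => x.2
  choose f hf using hlift
  let q : Polynomial Kb := ∑ i ∈ Finset.range (p.natDegree + 1), Polynomial.monomial i (f (p.coeff i))
  have hqcoeff : ∀ i, embC (q.coeff i) = (p.coeff i : ℂ) := by
    intro i
    simp only [q, Polynomial.finsetSum_coeff, Polynomial.coeff_monomial]
    rw [Finset.sum_ite_eq']
    split_ifs with hi
    · exact hf _
    · have : p.coeff i = 0 := Polynomial.coeff_eq_zero_of_natDegree_lt (by
        simp only [Finset.mem_range, not_lt] at hi; omega)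
      rw [this]; simp
  have hmap : q.map embC = p.map (algebraMap kC ℂ) := by
    ext i
    rw [Polynomial.coeff_map, Polynomial.coeff_map, hqcoeff]
    rfl
  have hq0 : q ≠ 0 := by
    intro h0
    apply hp0
    have : p.map (algebraMap kC ℂ) = 0 := by rw [← hmap, h0, Polynomial.map_zero]
    exact (Polynomial.map_eq_zero_iff (algebraMap kC ℂ).injective).1 this
  have hroot : (q.map embC).eval a = 0 := by
    rw [hmap, Polynomial.eval_map_algebraMap]; exact hpa
  have hsplit : (q.map embC).Splits := (IsAlgClosed.splits q).map embC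
  have hmem : a ∈ (q.map embC).roots := by
    rw [Polynomial.mem_roots (Polynomial.map_ne_zero hq0)]
    exact hroot
  rw [(IsAlgClosed.splits q).roots_map embC, Multiset.mem_map] at hmem
  obtain ⟨b, -, hb⟩ := hmem
  exact ⟨b, hb⟩

/-- the fixed field of `Γ(kC)` is `kC` (`isAlgebraic_of_finite_orbit`) -/
theorem mem_kC_of_fixed {a : ℂ} (h : ∀ σ ∈ kC.fixingSubgroup, σ a = a) : a ∈ kC := by
  apply mem_kC_of_isAlgebraic
  apply isAlgebraic_of_finite_orbit
  refine (Set.finite_singleton a).subset ?_
  rintro b ⟨σ, hσ, rfl⟩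
  exact h σ hσ

end Fermat.Agent.S17.G
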