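import Fermat.Agent.S17.G.Orbit

/-!
# S17 / G : from finite orbits of divisor classes to finite orbits of places
-/

set_option autoImplicit false

open AlgebraicCurve ModularCurve IntermediateField

namespace Fermat.Agent.S17.G

open FF

variable {N : ℕ} [NeZero N]

/-- the orbit of a class under `Γ(K)` -/
def orbJ (K : IntermediateField ℚ ℂ) (x : JL ℂ N) : Set (JL ℂ N) :=
  {w | ∃ σ ∈ K.fixingSubgroup, σ • x = w}

omit [NeZero N] in
theorem OrbCls.tdiv_nonneg {n : ℕ} (η : Fin n → PlL ℂ N) : 0 ≤ tdiv η :=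
  Finset.sum_nonneg fun _ _ => Finsupp.single_nonneg.2 zero_le_one

omit [NeZero N] in
theorem OrbCls.tdiv_apply_pos {n : ℕ} (η : Fin n → PlL ℂ N) (i : Fin n) : 0 < tdiv η (η i) := by
  classical
  unfold tdiv
  rw [Finsupp.finsetSum_apply]
  have h : (pdiv (η i) : DvL ℂ N) (η i) ≤ ∑ j, (pdiv (η j) : DvL ℂ N) (η i) :=
    Finset.single_le_sum (f := fun j => (pdiv (η j) : DvL ℂ N) (η i))
      (fun j _ => (Finsupp.single_nonneg.2 zero_le_one : (0 : DvL ℂ N) ≤ pdiv (η j)) (η i))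
      (Finset.mem_univ i)
  rw [Finsupp.single_eq_same] at h
  omega

/-- If `l(η_1 + … + η_n) = 1` then `σ • ctup η = τ • ctup η` implies `σ • tdiv η = τ • tdiv η`
(`smul_ctup`, `clsL_eq_iff`, `ell_gal_smul`, `eq_of_linEq_of_ell_eq_one`). -/
theorem gal_smul_tdiv_eq_of_smul_ctup_eq {n : ℕ} (η : Fin n → PlL ℂ N) (h1 : ell (tdiv η) = 1)
    (σ τ : ℂ ≃ₐ[ℚ] ℂ) (h : σ • ctup ℂ N η = τ • ctup ℂ N η) :
    gal ℂ N σ • tdiv η = gal ℂ N τ • tdiv η := by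
  rw [smul_ctup, smul_ctup, ctup, ctup, clsL_eq_iff] at h
  have h' : LinEq (tdiv fun i => gal ℂ N σ • η i) (tdiv fun i => gal ℂ N τ • η i) := by
    unfold LinEq at h ⊢
    rwa [sub_sub_sub_cancel_right] at h
  rw [gal_smul_tdiv, gal_smul_tdiv]
  refine eq_of_linEq_of_ell_eq_one (OrbCls.tdiv_nonneg _) (OrbCls.tdiv_nonneg _) ?_ h'
  rw [← gal_smul_tdiv, ell_gal_smul, h1]

/-- So the orbit of the divisor `tdiv η` is finite, and the orbit of `η i` lies in the (finite) union of the supports. -/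
theorem finite_orbP_of_finite_orbJ (K : IntermediateField ℚ ℂ) {n : ℕ} (η : Fin n → PlL ℂ N)
    (h1 : ell (tdiv η) = 1) (h : (orbJ K (ctup ℂ N η)).Finite) (i : Fin n) : (orbP K (η i)).Finite := by
  classical
  set Sg : Set (ℂ ≃ₐ[ℚ] ℂ) := {σ | σ ∈ K.fixingSubgroup}
  set a : (ℂ ≃ₐ[ℚ] ℂ) → JL ℂ N := fun σ => σ • ctup ℂ N η with ha
  set b : (ℂ ≃ₐ[ℚ] ℂ) → DvL ℂ N := fun σ => gal ℂ N σ • tdiv η with hb
  have hfin : (b '' Sg).Finite := by
    refine (h.image (fun w => b (Function.invFunOn a Sg w))).subset ?_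
    rintro _ ⟨σ, hσ, rfl⟩
    refine ⟨a σ, ⟨σ, hσ, rfl⟩, ?_⟩
    have hex : ∃ τ ∈ Sg, a τ = a σ := ⟨σ, hσ, rfl⟩
    exact gal_smul_tdiv_eq_of_smul_ctup_eq η h1 _ _ (Function.invFunOn_eq hex)
  refine (hfin.biUnion (fun E _ => E.support.finite_toSet)).subset ?_
  rintro _ ⟨σ, hσ, rfl⟩
  rw [Set.mem_iUnion₂]
  refine ⟨b σ, ⟨σ, hσ, rfl⟩, ?_⟩
  rw [Finset.mem_coe, Finsupp.mem_support_iff, hb]
  change (gal ℂ N σ • tdiv η) (gal ℂ N σ • η i) ≠ 0
  rw [SemilinearAut.divisor_smul_apply_smul]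
  exact (OrbCls.tdiv_apply_pos η i).ne'

end Fermat.Agent.S17.G
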