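import Fermat.Agent.S17.G.BCDiv
import Fermat.Agent.S17.G.OrbCls
import Fermat.Agent.S17.G.KC

/-!
# S17 / G1c : `J(ℚ̄) → J(ℂ)` is injective and its image consists of the classes with finite `Aut(ℂ/ℚ̄)`-orbit
-/

set_option autoImplicit false

open AlgebraicCurve ModularCurve IntermediateField

namespace Fermat.Agent.S17.G

open FF

variable {N : ℕ} [NeZero N]

theorem gal_smul_bc {σ : ℂ ≃ₐ[ℚ] ℂ} (hσ : σ ∈ kC.fixingSubgroup) (f : FL Kb N) :
    gal ℂ N σ • bc embC N f = bc embC N f := by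
  apply Subtype.ext
  ext n
  rw [coeff_gal_smul, coeff_bc]
  exact apply_eq_of_mem_fixingSubgroup hσ ((mem_kC_iff _).2 ⟨_, rfl⟩)

theorem mem_range_bc_of_fixed (φ : FL ℂ N) (h : ∀ σ ∈ kC.fixingSubgroup, gal ℂ N σ • φ = φ) :
    φ ∈ Set.range (bc embC N) := by
  rw [mem_range_bc_iff]
  intro n
  rw [← mem_kC_iff]
  apply mem_kC_of_fixed
  intro σ hσ
  rw [← coeff_gal_smul, h σ hσ]

/-- by uniqueness of the extension -/
theorem gal_smul_extP {σ : ℂ ≃ₐ[ℚ] ℂ} (hσ : σ ∈ kC.fixingSubgroup) (P : PlL Kb N) :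
    gal ℂ N σ • extP embC N P = extP embC N P := by
  apply eq_extP_of_pos
  intro f hf
  rw [← gal_smul_bc hσ f, SemilinearAut.ord_smul, ord_extP]
  exact hf

theorem gal_smul_extDiv {σ : ℂ ≃ₐ[ℚ] ℂ} (hσ : σ ∈ kC.fixingSubgroup) (D : DvL Kb N) :
    gal ℂ N σ • extDiv embC N D = extDiv embC N D := by
  induction D using Finsupp.induction_linear with
  | zero => rw [map_zero, smul_zero]
  | add D E hD hE => rw [map_add, smul_add, hD, hE]
  | single P n => rw [extDiv_single, SemilinearAut.smul_single, gal_smul_extP hσ]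

theorem clsL_congr {L : Type} [Field L] [Algebra ℚ L] [IsAlgClosed L] [CharZero L]
    {D D' : DvL L N} (h : D = D') (hD : Divisor.degree D = 0) (hD' : Divisor.degree D' = 0) :
    clsL L N D hD = clsL L N D' hD' := by
  subst h
  rfl

theorem smul_extPic {σ : ℂ ≃ₐ[ℚ] ℂ} (hσ : σ ∈ kC.fixingSubgroup) (x : JL Kb N) :
    σ • extPic embC N x = extPic embC N x := by
  obtain ⟨D, hD, rfl⟩ := exists_clsL x
  rw [extPic_clsL, smul_clsL]
  exact clsL_congr (gal_smul_extDiv hσ D) _ _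

/-- If `extDiv D = div φ`, normalise the leading Laurent coefficient of `φ` to be `1`.  For `σ ∈ Γ(kC)`, `σ φ / φ` has divisor `0`, so it is a constant
(`mem_LSp_zero`), equal to `1` by the normalisation.  So `φ = bc f` (`mem_range_bc_of_fixed`), and `div f = D` by `extDiv_divf`, `extDiv_injective`. -/
theorem isPrincipal_of_extDiv {D : DvL Kb N} (h : Divisor.IsPrincipal (extDiv embC N D)) :
    Divisor.IsPrincipal D := by
  obtain ⟨φ₀, hφ₀, hD₀⟩ := h
  -- normalisation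
  have hφ₀' : (φ₀ : LaurentSeries ℂ) ≠ 0 := fun h' => hφ₀ (Subtype.ext h')
  set n₀ := (φ₀ : LaurentSeries ℂ).order with hn₀
  set c₀ := (φ₀ : LaurentSeries ℂ).coeff n₀ with hc₀
  have hc₀0 : c₀ ≠ 0 := mt HahnSeries.coeff_order_eq_zero.mp hφ₀'
  set φ : FL ℂ N := algebraMap ℂ (FL ℂ N) c₀⁻¹ * φ₀ with hφdef
  have hcinv : algebraMap ℂ (FL ℂ N) c₀⁻¹ ≠ 0 := by simpa using hc₀0
  have hφ : φ ≠ 0 := mul_ne_zero hcinv hφ₀
  have hD : ∀ v : PlL ℂ N, extDiv embC N D v = v.ord φ := by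
    intro v
    rw [hφdef, v.ord_mul hcinv hφ₀, Fermat.Agent.S24.FF.ord_algebraMap, zero_add, hD₀]
  have hcm : ∀ (c : ℂ) (ψ : FL ℂ N) (m : ℤ),
      ((algebraMap ℂ (FL ℂ N) c * ψ : FL ℂ N) : LaurentSeries ℂ).coeff m =
        c * (ψ : LaurentSeries ℂ).coeff m := by
    intro c ψ m
    have : ((algebraMap ℂ (FL ℂ N) c * ψ : FL ℂ N) : LaurentSeries ℂ) =
        algebraMap ℂ (LaurentSeries ℂ) c * (ψ : LaurentSeries ℂ) := rfl
    rw [this, algebraMap_laurentSeries_eq_single, HahnSeries.coeff_single_zero_mul]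
  have hcoeff : ∀ m : ℤ, (φ : LaurentSeries ℂ).coeff m = c₀⁻¹ * (φ₀ : LaurentSeries ℂ).coeff m :=
    fun m => hcm _ _ m
  have hlead : (φ : LaurentSeries ℂ).coeff n₀ = 1 := by
    rw [hcoeff, ← hc₀, inv_mul_cancel₀ hc₀0]
  -- invariance
  have hfix : ∀ σ ∈ kC.fixingSubgroup, gal ℂ N σ • φ = φ := by
    intro σ hσ
    have hσφ : gal ℂ N σ • φ ≠ 0 := by
      intro h0
      apply hφ
      have := congrArg (fun x => (gal ℂ N σ)⁻¹ • x) h0
      simpa using this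
    have hord : ∀ v : PlL ℂ N, v.ord (gal ℂ N σ • φ) = v.ord φ := by
      intro v
      have h1 := SemilinearAut.ord_smul (gal ℂ N σ) ((gal ℂ N σ)⁻¹ • v) φ
      rw [smul_inv_smul] at h1
      rw [h1, ← hD, ← hD, ← SemilinearAut.divisor_smul_apply, gal_smul_extDiv hσ]
    have hmem : (gal ℂ N σ • φ) * φ⁻¹ ∈ LSp (0 : DvL ℂ N) := by
      right
      intro v
      rw [v.ord_mul hσφ (inv_ne_zero hφ), v.ord_inv, hord]
      simp
    obtain ⟨c, hc⟩ := mem_LSp_zero.mp hmem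
    have hc' : gal ℂ N σ • φ = algebraMap ℂ (FL ℂ N) c * φ := by
      rw [← hc, mul_assoc, inv_mul_cancel₀ hφ, mul_one]
    have h2 : ((gal ℂ N σ • φ : FL ℂ N) : LaurentSeries ℂ).coeff n₀ =
        ((algebraMap ℂ (FL ℂ N) c * φ : FL ℂ N) : LaurentSeries ℂ).coeff n₀ := by rw [hc']
    rw [coeff_gal_smul, hlead, hcm c φ n₀, hlead, map_one, mul_one] at h2
    rw [hc', ← h2, map_one, one_mul]
  obtain ⟨f, hf⟩ := mem_range_bc_of_fixed φ hfix
  have hf0 : f ≠ 0 := by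
    rintro rfl
    rw [map_zero] at hf
    exact hφ hf.symm
  have hdiv : divf f = D := by
    apply extDiv_injective embC
    rw [extDiv_divf, hf]
    ext v
    rw [divf_apply, hD]
  exact isPrincipal_iff.mpr ⟨f, hf0, hdiv.symm⟩

theorem extPic_injective : Function.Injective (extPic embC N : JL Kb N → JL ℂ N) := by
  rw [injective_iff_map_eq_zero]
  intro x hx
  obtain ⟨D, hD, rfl⟩ := exists_clsL x
  have h0 : ∀ (L : Type) [Field L] [Algebra ℚ L] [IsAlgClosed L] [CharZero L],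
      (0 : JL L N) = clsL L N 0 (map_zero _) := fun L _ _ _ _ => rfl
  rw [extPic_clsL, h0 ℂ, clsL_eq_iff] at hx
  rw [h0 Kb, clsL_eq_iff]
  unfold LinEq at hx ⊢
  rw [sub_zero] at hx ⊢
  exact isPrincipal_of_extDiv hx

/-- `Q = ∞`: `extP_infP`.  Otherwise `c = tv Q` is algebraic over `kC` (O2), so `c = embC c₀`; `tF ℂ N = bc t₀` (`mem_range_bc_of_fixed`, `gal_smul_fr`);
`Q` is a zero of `bc (t₀ - c₀) ≠ 0`; conclude by `eq_extP_or`. -/
theorem exists_extP_of_finite_orbP (Q : PlL ℂ N) (h : (orbP kC Q).Finite) :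
    ∃ P : PlL Kb N, Q = extP embC N P := by
  by_cases hQ : Q = infP ℂ N
  · exact ⟨infP Kb N, by rw [hQ, extP_infP]⟩
  have halg := isAlgebraic_crdP_of_finite_orbP kC hQ h (i0 ℂ N)
  obtain ⟨c₀, hc₀⟩ := (mem_kC_iff _).1 (mem_kC_of_isAlgebraic halg)
  obtain ⟨t₀, ht₀⟩ := mem_range_bc_of_fixed (tF ℂ N) (fun σ _ => gal_smul_fr σ (i0 ℂ N))
  have hord : 0 ≤ Q.ord (tF ℂ N) := ord_fr_nonneg hQ (i0 ℂ N)
  have hval : val Q (tF ℂ N) = embC c₀ := hc₀.symm
  have hpos : 0 < Q.ord (bc embC N (t₀ - algebraMap Kb (FL Kb N) c₀)) := by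
    rw [map_sub, ht₀, bc_algebraMap, ← hval]
    rcases val_spec Q hord with h1 | h1
    · exfalso
      apply transcendental_tF (L := ℂ) (N := N)
      rw [h1]
      exact isAlgebraic_algebraMap _
    · exact h1
  rcases eq_extP_or embC Q with hP | hP
  · exact hP
  · rw [hP] at hpos
    exact absurd hpos (lt_irrefl 0)

/-- `exists_ctup_min`, `finite_orbP_of_finite_orbJ`, `exists_extP_of_finite_orbP`, `extPic_ctup`. -/
theorem mem_range_extPic_of_finite_orbJ (z : JL ℂ N) (h : (orbJ kC z).Finite) :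
    z ∈ Set.range (extPic embC N : JL Kb N → JL ℂ N) := by
  obtain ⟨d, Q, -, -, rfl, h1⟩ := exists_ctup_min z
  have hQ : ∀ i, ∃ P : PlL Kb N, Q i = extP embC N P := fun i =>
    exists_extP_of_finite_orbP (Q i) (finite_orbP_of_finite_orbJ kC Q h1 h i)
  choose P hP using hQ
  refine ⟨ctup Kb N P, ?_⟩
  rw [extPic_ctup]
  congr 1
  funext i
  exact (hP i).symm

end Fermat.Agent.S17.G
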