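import Fermat.Agent.S17.G.Gen5
import Fermat.Agent.S17.G.BCDescent

/-!
# S17 / Part G, final statements (modulo Part F: `J(ℂ)[2]` is finite)
-/

set_option autoImplicit false

open AlgebraicCurve ModularCurve IntermediateField

namespace Fermat.Agent.S17.G

open FF

variable {N : ℕ} [NeZero N]

/-- `J(ℚ̄)[2]` is finite (`extPic_injective`). -/
theorem finite_two_torsion (h2 : {y : JL ℂ N | 2 • y = 0}.Finite) :
    {y : JZero N | 2 • y = 0}.Finite := by
  have hinj : Function.Injective (extPic embC N : JL Kb N → JL ℂ N) := extPic_injective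
  refine Set.Finite.of_finite_image (f := (extPic embC N : JL Kb N → JL ℂ N))
    (h2.subset ?_) hinj.injOn
  rintro _ ⟨y, hy, rfl⟩
  have hy' : 2 • y = 0 := hy
  show 2 • extPic embC N y = 0
  rw [← map_nsmul, hy', map_zero]

/-- `J(ℚ̄)` is `2`-divisible: `extPic x = 2 z` (`exists_two_nsmul_eq_of_fixed`, `smul_extPic`); the `Γ(kC)`-orbit of `z` lies in `z + J(ℂ)[2]`, so `z = extPic y`
(`mem_range_extPic_of_finite_orbJ`); `extPic_injective`. -/
theorem exists_two_nsmul_eq (h2 : {y : JL ℂ N | 2 • y = 0}.Finite) (x : JZero N) :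
    ∃ y : JZero N, 2 • y = x := by
  obtain ⟨z, hz⟩ := exists_two_nsmul_eq_of_fixed h2 kC (extPic embC N x)
    (fun σ hσ => smul_extPic hσ x)
  have hfin : (orbJ kC z).Finite := by
    refine ((h2.image (fun t => z + t))).subset ?_
    rintro w ⟨σ, hσ, rfl⟩
    refine ⟨σ • z - z, ?_, add_sub_cancel _ _⟩
    show 2 • (σ • z - z) = 0
    have h1 : 2 • (σ • z) = σ • (2 • z) := by
      rw [two_nsmul, two_nsmul, smul_add]
    rw [nsmul_sub, h1, hz, smul_extPic hσ x, sub_self]
  obtain ⟨y, hy⟩ := mem_range_extPic_of_finite_orbJ z hfin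
  refine ⟨y, extPic_injective ?_⟩
  rw [map_nsmul, hy, hz]

end Fermat.Agent.S17.G
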