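import Fermat.Agent.S23.Descent

/-!
# S17 / G2 : automorphisms of `ℂ` over countable subfields; transcendence bookkeeping (pure field theory, no curves)

`K` always denotes a countable subfield of `ℂ` (an `IntermediateField ℚ ℂ`), `Γ(K) = K.fixingSubgroup ≤ (ℂ ≃ₐ[ℚ] ℂ)`,
`adj K S = K(S)`.
-/

set_option autoImplicit false

open IntermediateField

namespace Fermat.Agent.S17.G

/-- `K(S)` -/
noncomputable def adj (K : IntermediateField ℚ ℂ) (S : Set ℂ) : IntermediateField ℚ ℂ :=
  IntermediateField.adjoin ℚ ((K : Set ℂ) ∪ S)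

theorem le_adj (K : IntermediateField ℚ ℂ) (S : Set ℂ) : K ≤ adj K S := fun _ hx =>
  IntermediateField.subset_adjoin ℚ _ (Or.inl hx)

theorem subset_adj (K : IntermediateField ℚ ℂ) (S : Set ℂ) : S ⊆ (adj K S : Set ℂ) := fun _ hx =>
  IntermediateField.subset_adjoin ℚ _ (Or.inr hx)

theorem adj_le_iff {K M : IntermediateField ℚ ℂ} {S : Set ℂ} : adj K S ≤ M ↔ K ≤ M ∧ S ⊆ (M : Set ℂ) := by
  rw [adj, IntermediateField.adjoin_le_iff, Set.union_subset_iff]
  rfl

theorem adj_mono {K K' : IntermediateField ℚ ℂ} {S S' : Set ℂ} (hK : K ≤ K') (hS : S ⊆ S') :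
    adj K S ≤ adj K' S' :=
  adj_le_iff.2 ⟨hK.trans (le_adj _ _), hS.trans (subset_adj _ _)⟩

theorem adj_adj (K : IntermediateField ℚ ℂ) (S T : Set ℂ) : adj (adj K S) T = adj K (S ∪ T) := by
  apply le_antisymm
  · refine adj_le_iff.2 ⟨adj_mono le_rfl Set.subset_union_left, ?_⟩
    exact Set.subset_union_right.trans (subset_adj _ _)
  · refine adj_le_iff.2 ⟨(le_adj _ _).trans (le_adj _ _), Set.union_subset ?_ (subset_adj _ _)⟩
    exact (subset_adj K S).trans (le_adj (adj K S) T)

/-- Mathlib: `Subfield.cardinalMk_closure_le_max` / `IntermediateField.cardinalMk_adjoin_le`. -/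
theorem countable_adj (K : IntermediateField ℚ ℂ) [Countable K] (S : Set ℂ) (hS : S.Countable) :
    Countable (adj K S) := by
  have hK : (K : Set ℂ).Countable := Set.countable_coe_iff.mp ‹Countable K›
  have hU : ((K : Set ℂ) ∪ S).Countable := hK.union hS
  rw [← Cardinal.mk_le_aleph0_iff]
  refine (IntermediateField.cardinalMk_adjoin_le ℚ ((K : Set ℂ) ∪ S)).trans ?_
  refine sup_le (sup_le ?_ ?_) le_rfl
  · exact Cardinal.mk_le_aleph0
  · exact Cardinal.le_aleph0_iff_set_countable.mpr hU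

theorem apply_eq_of_mem_fixingSubgroup {K : IntermediateField ℚ ℂ} {σ : ℂ ≃ₐ[ℚ] ℂ}
    (hσ : σ ∈ K.fixingSubgroup) {a : ℂ} (ha : a ∈ K) : σ a = a :=
  (IntermediateField.mem_fixingSubgroup_iff K σ).1 hσ a ha

theorem mem_fixingSubgroup_of_forall {K : IntermediateField ℚ ℂ} {σ : ℂ ≃ₐ[ℚ] ℂ}
    (h : ∀ a ∈ K, σ a = a) : σ ∈ K.fixingSubgroup :=
  (IntermediateField.mem_fixingSubgroup_iff K σ).2 h

theorem mem_fixingSubgroup_adj_iff (K : IntermediateField ℚ ℂ) (S : Set ℂ) (σ : ℂ ≃ₐ[ℚ] ℂ) :
    σ ∈ (adj K S).fixingSubgroup ↔ σ ∈ K.fixingSubgroup ∧ ∀ s ∈ S, σ s = s := by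
  constructor
  · intro h
    exact ⟨IntermediateField.fixingSubgroup_le (le_adj K S) h,
      fun s hs => apply_eq_of_mem_fixingSubgroup h (subset_adj K S hs)⟩
  · rintro ⟨h1, h2⟩
    have hle : adj K S ≤ IntermediateField.fixedField (Subgroup.zpowers σ) := by
      refine adj_le_iff.2 ⟨?_, ?_⟩
      · rw [IntermediateField.le_iff_le, Subgroup.zpowers_le]
        exact h1
      · intro s hs
        rw [SetLike.mem_coe, IntermediateField.mem_fixedField_iff]
        intro τ hτ
        obtain ⟨n, rfl⟩ := Subgroup.mem_zpowers_iff.1 hτ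
        have hstab : σ ∈ MulAction.stabilizer (ℂ ≃ₐ[ℚ] ℂ) s := h2 s hs
        exact (MulAction.stabilizer (ℂ ≃ₐ[ℚ] ℂ) s).zpow_mem hstab n
    rw [IntermediateField.le_iff_le] at hle
    exact hle (Subgroup.mem_zpowers σ)

/-- Any two embeddings of a countable domain into `ℂ` differ by an automorphism of `ℂ`
(`S23.exists_ringEquiv_complex`; a ring automorphism of `ℂ` is `ℚ`-linear). -/
theorem exists_algEquiv_complex {R : Type} [CommRing R] [IsDomain R] [Countable R]
    (φ ψ : R →+* ℂ) (hφ : Function.Injective φ) (hψ : Function.Injective ψ) :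
    ∃ σ : ℂ ≃ₐ[ℚ] ℂ, ∀ r : R, σ (φ r) = ψ r := by
  obtain ⟨σ, hσ⟩ := Fermat.Agent.S23.exists_ringEquiv_complex (Cardinal.mk_le_aleph0) φ ψ hφ hψ
  exact ⟨AlgEquiv.ofRingEquiv (f := σ) (fun r => by simp), hσ⟩

/-- A complex number with a finite orbit under `Aut(ℂ/K)` is algebraic over `K`.
Proof: if `a` is transcendental over `K`, so is `a + n` for all `n : ℕ`; the two embeddings `K[X] → ℂ`, `X ↦ a`, `X ↦ a + n`
differ by an automorphism, which fixes `K`; so the orbit contains all `a + n`. -/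
theorem isAlgebraic_of_finite_orbit (K : IntermediateField ℚ ℂ) [Countable K] (a : ℂ)
    (h : {b : ℂ | ∃ σ ∈ K.fixingSubgroup, σ a = b}.Finite) : IsAlgebraic K a := by
  by_contra htr
  have htr : Transcendental K a := htr
  apply h.not_infinite
  have hsub : Set.range (fun n : ℕ => a + (n : ℂ)) ⊆ {b : ℂ | ∃ σ ∈ K.fixingSubgroup, σ a = b} := by
    rintro _ ⟨n, rfl⟩
    have htr' : Transcendental K (a + (n : ℂ)) := by
      intro halg
      apply htr
      have h1 : IsAlgebraic K ((n : ℂ)) := by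
        have : ((n : ℂ)) = algebraMap K ℂ (n : K) := by simp
        rw [this]
        exact isAlgebraic_algebraMap _
      have := halg.sub h1
      simpa using this
    haveI : Countable (Polynomial K) := by
      rw [← Cardinal.mk_le_aleph0_iff]
      refine (Polynomial.cardinalMk_le_max).trans ?_
      simp
    obtain ⟨σ, hσ⟩ := exists_algEquiv_complex
      (Polynomial.aeval (R := K) a).toRingHom (Polynomial.aeval (R := K) (a + (n : ℂ))).toRingHom
      (transcendental_iff_injective.1 htr) (transcendental_iff_injective.1 htr')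
    refine ⟨σ, mem_fixingSubgroup_of_forall fun x hx => ?_, ?_⟩
    · have := hσ (Polynomial.C (⟨x, hx⟩ : K))
      simpa using this
    · have := hσ Polynomial.X
      simpa using this
  refine Set.Infinite.mono hsub (Set.infinite_range_of_injective ?_)
  intro m n hmn
  simpa using hmn

end Fermat.Agent.S17.G
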