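import Fermat.Agent.S17.G.BCMap

/-!
# S17 / G1a : `[F_Ω : Ω(t)] ≤ [F_k : k(t)]`
-/

set_option autoImplicit false
set_option linter.style.haveILetI false
set_option linter.unusedSectionVars false

open AlgebraicCurve ModularCurve IntermediateField

namespace Fermat.Agent.S17.G

open FF

variable {k Ω : Type} [Field k] [Field Ω] [Algebra ℚ k] [Algebra ℚ Ω] (e : k →+* Ω) (N : ℕ)
variable [NeZero N] [IsAlgClosed k] [CharZero k] [IsAlgClosed Ω] [CharZero Ω]

theorem transcendental_bc {t : FL k N} (ht : Transcendental k t) : Transcendental Ω (bc e N t) := by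
  intro halg
  obtain ⟨c, hc⟩ := Fermat.Agent.S24.FF.DegOne.exists_algebraMap_eq_of_isAlgebraic Ω halg
  apply ht
  have : t = algebraMap k (FL k N) ((t : LaurentSeries k).coeff 0) := by
    apply Subtype.ext
    ext n
    show (t : LaurentSeries k).coeff n
      = (algebraMap k (LaurentSeries k) ((t : LaurentSeries k).coeff 0)).coeff n
    rw [algebraMap_laurentSeries_eq_single]
    by_cases hn : n = 0
    · subst hn
      simp
    · rw [HahnSeries.coeff_single_of_ne hn]
      have h1 : (bc e N t : LaurentSeries Ω).coeff n = 0 := by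
        rw [← hc]
        show (algebraMap Ω (LaurentSeries Ω) c).coeff n = 0
        rw [algebraMap_laurentSeries_eq_single, HahnSeries.coeff_single_of_ne hn]
      rw [coeff_bc] at h1
      exact e.injective (h1.trans (map_zero e).symm)
  rw [this]
  exact isAlgebraic_algebraMap _

theorem BCDeg.finiteDimensional {L : Type} [Field L] [Algebra ℚ L] [IsAlgClosed L] [CharZero L]
    {t : FL L N} (ht : Transcendental L t) : FiniteDimensional L⟮t⟯ (FL L N) := by
  obtain ⟨y, _, hfin⟩ := IsFF.exists_gen (K := L) (F := FL L N)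
  exact Fermat.Agent.S24.FF.finiteDimensional_of_transcendental L y ht

/-- generic form of `finrank_bc_le`. -/
theorem BCDeg.finrank_le_generic {k Ω F₁ F₂ : Type*} [Field k] [Field Ω] [Field F₁] [Field F₂]
    [Algebra k F₁] [Algebra Ω F₂] (e : k →+* Ω) (β : F₁ →+* F₂)
    (hβ : ∀ a : k, β (algebraMap k F₁ a) = algebraMap Ω F₂ (e a))
    (hspan : ∀ φ : F₂, ∃ A B : F₂, A ∈ Submodule.span Ω (Set.range β) ∧
      B ∈ Submodule.span Ω (Set.range β) ∧ B ≠ 0 ∧ φ * B = A)
    (t : F₁) [FiniteDimensional k⟮t⟯ F₁] [Algebra.IsAlgebraic Ω⟮β t⟯ F₂] :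
    Module.finrank Ω⟮β t⟯ F₂ ≤ Module.finrank k⟮t⟯ F₁ := by
  have hmem : ∀ r ∈ k⟮t⟯, β r ∈ Ω⟮β t⟯ := by
    intro r hr
    induction hr using IntermediateField.adjoin_induction with
    | mem x hx =>
      rw [Set.mem_singleton_iff] at hx
      rw [hx]
      exact mem_adjoin_simple_self Ω _
    | algebraMap a =>
      rw [hβ]
      exact IntermediateField.algebraMap_mem _ _
    | add x y _ _ hx hy =>
      rw [map_add]
      exact add_mem hx hy
    | inv x _ hx =>
      rw [map_inv₀]
      exact inv_mem hx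
    | mul x y _ _ hx hy =>
      rw [map_mul]
      exact mul_mem hx hy
  let u := Module.finBasis k⟮t⟯ F₁
  let W : Submodule Ω⟮β t⟯ F₂ := Submodule.span Ω⟮β t⟯ (Set.range (fun i => β (u i)))
  have hb : ∀ f, β f ∈ W := by
    intro f
    rw [← u.sum_repr f, map_sum]
    refine Submodule.sum_mem _ fun i _ => ?_
    have h1 : β (u.repr f i • u i)
        = (⟨β (u.repr f i : F₁), hmem _ (u.repr f i).2⟩ : Ω⟮β t⟯) • β (u i) := by
      rw [Algebra.smul_def, map_mul, Algebra.smul_def]
      rfl
    rw [h1]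
    exact Submodule.smul_mem _ _ (Submodule.subset_span ⟨i, rfl⟩)
  let W' : Subalgebra Ω⟮β t⟯ F₂ := Algebra.adjoin Ω⟮β t⟯ (Set.range β)
  have hW' : Subalgebra.toSubmodule W' ≤ W := by
    rw [Algebra.adjoin_eq_span, Submodule.span_le]
    intro x hx
    have h1 : x ∈ Set.range β := by
      induction hx using Submonoid.closure_induction with
      | mem x hx => exact hx
      | one => exact ⟨1, map_one _⟩
      | mul x y _ _ hx hy =>
        obtain ⟨f, rfl⟩ := hx
        obtain ⟨g, rfl⟩ := hy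
        exact ⟨f * g, map_mul _ _ _⟩
    obtain ⟨f, rfl⟩ := h1
    exact hb f
  have hV : ∀ A ∈ Submodule.span Ω (Set.range β), A ∈ W' := by
    intro A hA
    induction hA using Submodule.span_induction with
    | mem x hx => exact Algebra.subset_adjoin hx
    | zero => exact zero_mem _
    | add x y _ _ hx hy => exact add_mem hx hy
    | smul a x _ hx =>
      rw [← algebraMap_smul Ω⟮β t⟯ a x]
      exact W'.smul_mem hx _
  have htop : ∀ φ : F₂, φ ∈ W := by
    intro φ
    apply hW'
    obtain ⟨A, B, hA, hB, hB0, hAB⟩ := hspan φ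
    have h1 : φ = A * B⁻¹ := by
      rw [← hAB, mul_assoc, mul_inv_cancel₀ hB0, mul_one]
    rw [h1]
    have h2 : B⁻¹ ∈ W' :=
      W'.inv_mem_of_algebraic (x := ⟨B, hV B hB⟩) (Algebra.IsAlgebraic.isAlgebraic B)
    exact (mul_mem (hV A hA) h2 : A * B⁻¹ ∈ W')
  have hWtop : W = ⊤ := eq_top_iff.2 fun φ _ => htop φ
  calc Module.finrank Ω⟮β t⟯ F₂ = Module.finrank Ω⟮β t⟯ W := by
        rw [hWtop, finrank_top]
    _ ≤ Fintype.card (Fin (Module.finrank k⟮t⟯ F₁)) := finrank_range_le_card _
    _ = Module.finrank k⟮t⟯ F₁ := Fintype.card_fin _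

/-- `[F_Ω : Ω(t)] ≤ [F_k : k(t)]`: the images of a `k(t)`-basis `u_i` of `F_k` span `F_Ω` over `Ω(t)` (their `Ω(t)`-span is a subring, finite dimensional over
a field, hence a field; it contains `Ω` and `bc(F_k)`).  Alternatively Mathlib's `IntermediateField.adjoin_rank_le_of_isAlgebraic`. -/
theorem finrank_bc_le {t : FL k N} (ht : Transcendental k t) :
    Module.finrank Ω⟮bc e N t⟯ (FL Ω N) ≤ Module.finrank k⟮t⟯ (FL k N) := by
  have hT := transcendental_bc e N ht
  haveI := BCDeg.finiteDimensional N ht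
  haveI := BCDeg.finiteDimensional N hT
  haveI : Algebra.IsAlgebraic Ω⟮bc e N t⟯ (FL Ω N) := Algebra.IsAlgebraic.of_finite _ _
  exact BCDeg.finrank_le_generic e (bc e N) (bc_algebraMap e N) (exists_span_div e N) t

end Fermat.Agent.S17.G
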