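import Fermat.Agent.S17.G.BCPlace

/-!
# S17 / G1b : base change of divisors and divisor classes
-/

set_option autoImplicit false

open AlgebraicCurve ModularCurve IntermediateField

namespace Fermat.Agent.S17.G

open FF

variable {k Ω : Type} [Field k] [Field Ω] [Algebra ℚ k] [Algebra ℚ Ω] (e : k →+* Ω) {N : ℕ}
variable [NeZero N] [IsAlgClosed k] [CharZero k] [IsAlgClosed Ω] [CharZero Ω]

variable (N) in
/-- base change of divisors -/
noncomputable def extDiv : DvL k N →+ DvL Ω N := Finsupp.mapDomain.addMonoidHom (extP e N)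

theorem extDiv_single (P : PlL k N) (n : ℤ) :
    extDiv e N (Finsupp.single P n) = Finsupp.single (extP e N P) n :=
  Finsupp.mapDomain_single

theorem extDiv_apply_extP (D : DvL k N) (P : PlL k N) : extDiv e N D (extP e N P) = D P :=
  Finsupp.mapDomain_apply (extP_injective e) D P

theorem extDiv_apply_of_forall_ne (D : DvL k N) (Q : PlL Ω N) (h : ∀ P : PlL k N, Q ≠ extP e N P) :
    extDiv e N D Q = 0 :=
  Finsupp.mapDomain_of_notMem_range D Q (by rintro ⟨P, hP⟩; exact h P hP.symm)

theorem extDiv_injective : Function.Injective (extDiv e N : DvL k N → DvL Ω N) :=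
  Finsupp.mapDomain_injective (extP_injective e)

theorem extDiv_divf (f : FL k N) : extDiv e N (divf f) = divf (bc e N f) := by
  ext Q
  rw [divf_apply]
  rcases eq_extP_or e Q with ⟨P, rfl⟩ | h
  · rw [extDiv_apply_extP, ord_extP, divf_apply]
  · rw [h f]
    by_cases hQ : ∃ P : PlL k N, Q = extP e N P
    · obtain ⟨P, rfl⟩ := hQ
      rw [extDiv_apply_extP, divf_apply, ← ord_extP e P f, h f]
    · push Not at hQ
      exact extDiv_apply_of_forall_ne e _ Q hQ

theorem degree_extDiv (D : DvL k N) : Divisor.degree (extDiv e N D) = Divisor.degree D := by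
  rw [degree_eq_sum, degree_eq_sum]
  exact Finsupp.sum_mapDomain_index (fun _ => rfl) (fun _ _ _ => rfl)

theorem extDiv_tdiv {n : ℕ} (P : Fin n → PlL k N) : extDiv e N (tdiv P) = tdiv (fun i => extP e N (P i)) := by
  unfold tdiv
  rw [map_sum]
  exact Finset.sum_congr rfl fun i _ => extDiv_single e (P i) 1

theorem exists_extPic : ∃ φ : JL k N →+ JL Ω N, ∀ (D : DvL k N) (hD : Divisor.degree D = 0),
    φ (clsL k N D hD) = clsL Ω N (extDiv e N D) (by rw [degree_extDiv, hD]) := by
  let ψ : Divisor.degZero (K := k) (F := FL k N) →+ Divisor.degZero (K := Ω) (F := FL Ω N) :=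
    ((extDiv e N).comp (Divisor.degZero (K := k) (F := FL k N)).subtype).codRestrict _ (fun D => by
      rw [Divisor.mem_degZero]
      show Divisor.degree (extDiv e N D.1) = 0
      rw [degree_extDiv]
      exact D.2)
  refine ⟨QuotientAddGroup.map _ _ ψ ?_, fun D hD => rfl⟩
  intro D hD
  rw [AddSubgroup.mem_comap]
  rw [AddSubgroup.mem_addSubgroupOf] at hD ⊢
  rw [Divisor.mem_principal] at hD ⊢
  obtain ⟨f, hf, h⟩ := hD
  refine ⟨bc e N f, by simpa using hf, fun Q => ?_⟩
  have h1 : (D : DvL k N) = divf f := by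
    ext v
    rw [h v, divf_apply]
  show extDiv e N (D : DvL k N) Q = _
  rw [h1, extDiv_divf, divf_apply]

variable (N) in
/-- base change of divisor classes -/
noncomputable def extPic : JL k N →+ JL Ω N := (exists_extPic e).choose

theorem extPic_clsL (D : DvL k N) (hD : Divisor.degree D = 0) :
    extPic e N (clsL k N D hD) = clsL Ω N (extDiv e N D) (by rw [degree_extDiv, hD]) :=
  (exists_extPic e).choose_spec D hD

theorem extPic_ctup {n : ℕ} (P : Fin n → PlL k N) :
    extPic e N (ctup k N P) = ctup Ω N (fun i => extP e N (P i)) := by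
  unfold ctup
  rw [extPic_clsL]
  congr 1
  rw [map_sub, map_nsmul, extDiv_tdiv, extDiv_single, extP_infP]

end Fermat.Agent.S17.G
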