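import Fermat.Agent.S17.G.Cls

/-!
# S17 / G1a : base change of the function field `F_k → F_Ω` along a field embedding `e : k → Ω` (coefficientwise on Laurent series)
-/

set_option autoImplicit false
set_option linter.style.haveILetI false

open AlgebraicCurve ModularCurve IntermediateField

namespace Fermat.Agent.S17.G

open FF

variable {k Ω : Type} [Field k] [Field Ω] [Algebra ℚ k] [Algebra ℚ Ω] (e : k →+* Ω) (N : ℕ)

omit [Algebra ℚ k] [Algebra ℚ Ω] in
theorem BCMap.coeffMap_algebraMap' (a : k) :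
    coeffMap e (algebraMap k (LaurentSeries k) a) = algebraMap Ω (LaurentSeries Ω) (e a) := by
  rw [algebraMap_laurentSeries_eq_single, algebraMap_laurentSeries_eq_single, coeffMap_single]

theorem BCMap.coeffMap_coeffEmb' (z : LaurentSeries ℚ) :
    coeffMap e (coeffEmb k z) = coeffEmb Ω z := by
  rw [coeffEmb, coeffMap_coeffMap]
  exact coeffMap_congr (Subsingleton.elim _ _) z

/-- closure induction as in the Prelude's `coeffMap_mem_laurentBaseChange`; `e ∘ algebraMap ℚ k = algebraMap ℚ Ω`. -/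
theorem coeffMap_mem_FL {x : LaurentSeries k} (hx : x ∈ FL k N) : coeffMap e x ∈ FL Ω N := by
  rw [mem_laurentBaseChange_iff] at hx
  induction hx using Subfield.closure_induction with
  | mem y hy =>
      rcases hy with ⟨a, rfl⟩ | ⟨z, hz, rfl⟩
      · rw [BCMap.coeffMap_algebraMap']
        exact (FL Ω N).algebraMap_mem _
      · rw [BCMap.coeffMap_coeffEmb']
        exact coeffEmb_mem_laurentBaseChange Ω hz
  | one => simp
  | add x y _ _ hx hy => simpa using add_mem hx hy
  | neg x _ hx => simpa using neg_mem hx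
  | inv x _ hx => simpa using inv_mem hx
  | mul x y _ _ hx hy => simpa using mul_mem hx hy

/-- base change of functions -/
noncomputable def bc : FL k N →+* FL Ω N where
  toFun f := ⟨coeffMap e (f : LaurentSeries k), coeffMap_mem_FL e N f.2⟩
  map_one' := Subtype.ext (map_one (coeffMap e))
  map_mul' f g := Subtype.ext (map_mul (coeffMap e) (f : LaurentSeries k) (g : LaurentSeries k))
  map_zero' := Subtype.ext (map_zero (coeffMap e))
  map_add' f g := Subtype.ext (map_add (coeffMap e) (f : LaurentSeries k) (g : LaurentSeries k))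

theorem coe_bc (f : FL k N) : (bc e N f : LaurentSeries Ω) = coeffMap e (f : LaurentSeries k) := rfl

theorem coeff_bc (f : FL k N) (n : ℤ) :
    (bc e N f : LaurentSeries Ω).coeff n = e ((f : LaurentSeries k).coeff n) := rfl

theorem bc_algebraMap (a : k) : bc e N (algebraMap k (FL k N) a) = algebraMap Ω (FL Ω N) (e a) :=
  Subtype.ext (BCMap.coeffMap_algebraMap' e a)

theorem bc_injective : Function.Injective (bc e N) := (bc e N).injective

omit [Algebra ℚ k] [Algebra ℚ Ω] in
theorem BCMap.coeffMap_injective : Function.Injective (coeffMap e) := by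
  intro x y h
  ext n
  have := congrArg (fun z : LaurentSeries Ω => z.coeff n) h
  exact e.injective this

omit [Algebra ℚ k] [Algebra ℚ Ω] in
theorem BCMap.order_coeffMap (x : LaurentSeries k) : (coeffMap e x).order = x.order := by
  rcases eq_or_ne x 0 with rfl | hx
  · simp
  have hx' : coeffMap e x ≠ 0 := by
    intro h
    exact hx (BCMap.coeffMap_injective e (by rw [h, map_zero]))
  apply le_antisymm
  · refine HahnSeries.order_le_of_coeff_ne_zero ?_
    rw [coeffMap_coeff]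
    simpa using (mt HahnSeries.coeff_order_eq_zero.mp hx)
  · refine HahnSeries.order_le_of_coeff_ne_zero ?_
    have := (mt HahnSeries.coeff_order_eq_zero.mp hx')
    rw [coeffMap_coeff] at this
    intro h0
    exact this (by rw [h0, map_zero])

theorem order_bc (f : FL k N) : (bc e N f : LaurentSeries Ω).order = (f : LaurentSeries k).order :=
  BCMap.order_coeffMap e _

omit [Algebra ℚ k] [Algebra ℚ Ω] in
/-- `k((q)) ⊗_k Ω → Ω((q))` is injective (coefficientwise). `hw` says that the `w i` are linearly independent over `e(k)`. -/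
theorem eq_zero_of_sum_smul_bc {ι : Type*} (s : Finset ι) (w : ι → Ω)
    (hw : ∀ c : ι → k, ∑ i ∈ s, e (c i) * w i = 0 → ∀ i ∈ s, c i = 0)
    (f : ι → LaurentSeries k)
    (h : ∑ i ∈ s, w i • coeffMap e (f i) = 0) : ∀ i ∈ s, f i = 0 := by
  intro i hi
  ext n
  refine hw (fun i => (f i).coeff n) ?_ i hi
  have := congrArg (fun z : LaurentSeries Ω => z.coeff n) h
  simp only [HahnSeries.coeff_sum, HahnSeries.coeff_smul, coeffMap_coeff, smul_eq_mul,
    HahnSeries.coeff_zero] at this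
  rw [← this]
  exact Finset.sum_congr rfl fun i _ => mul_comm _ _

/-- the `Ω`-span of `bc(F_k)`. -/
noncomputable abbrev BCMap.V : Submodule Ω (FL Ω N) := Submodule.span Ω (Set.range (bc e N))

theorem BCMap.bc_mem_V (f : FL k N) : bc e N f ∈ BCMap.V e N := Submodule.subset_span ⟨f, rfl⟩

theorem BCMap.one_mem_V : (1 : FL Ω N) ∈ BCMap.V e N := by
  have := BCMap.bc_mem_V e N 1
  rwa [map_one] at this

theorem BCMap.mul_mem_V {A B : FL Ω N} (hA : A ∈ BCMap.V e N) (hB : B ∈ BCMap.V e N) :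
    A * B ∈ BCMap.V e N := by
  have h1 : A * B ∈ BCMap.V e N * BCMap.V e N := Submodule.mul_mem_mul hA hB
  rw [Submodule.span_mul_span] at h1
  refine Submodule.span_mono ?_ h1
  rintro _ ⟨_, ⟨f, rfl⟩, _, ⟨g, rfl⟩, rfl⟩
  exact ⟨f * g, map_mul _ _ _⟩

/-- `F_Ω` is the field of fractions of the `Ω`-span of `bc(F_k)`: the set of all `A/B` is a subfield containing `Ω` and the generators. -/
theorem exists_span_div (φ : FL Ω N) : ∃ A B : FL Ω N,
    A ∈ Submodule.span Ω (Set.range (bc e N)) ∧ B ∈ Submodule.span Ω (Set.range (bc e N)) ∧ B ≠ 0 ∧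
      φ * B = A := by
  obtain ⟨x, hx⟩ := φ
  have key : ∀ (x : LaurentSeries Ω) (hx : x ∈ FL Ω N), ∃ A B : FL Ω N,
      A ∈ BCMap.V e N ∧ B ∈ BCMap.V e N ∧ B ≠ 0 ∧ (⟨x, hx⟩ : FL Ω N) * B = A := by
    intro x hx
    induction hx using IntermediateField.adjoin_induction with
    | mem x hx =>
      obtain ⟨z, hz, rfl⟩ := hx
      refine ⟨bc e N ⟨coeffEmb k z, coeffEmb_mem_laurentBaseChange k hz⟩, 1, BCMap.bc_mem_V e N _,
        BCMap.one_mem_V e N, one_ne_zero, ?_⟩
      rw [mul_one]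
      exact Subtype.ext (BCMap.coeffMap_coeffEmb' e z).symm
    | algebraMap a =>
      refine ⟨a • 1, 1, Submodule.smul_mem _ _ (BCMap.one_mem_V e N), BCMap.one_mem_V e N,
        one_ne_zero, ?_⟩
      rw [mul_one, Algebra.smul_def, mul_one]
      rfl
    | add x y hx hy ihx ihy =>
      obtain ⟨A₁, B₁, hA₁, hB₁, hB₁0, h₁⟩ := ihx
      obtain ⟨A₂, B₂, hA₂, hB₂, hB₂0, h₂⟩ := ihy
      refine ⟨A₁ * B₂ + A₂ * B₁, B₁ * B₂,
        Submodule.add_mem _ (BCMap.mul_mem_V e N hA₁ hB₂) (BCMap.mul_mem_V e N hA₂ hB₁),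
        BCMap.mul_mem_V e N hB₁ hB₂, mul_ne_zero hB₁0 hB₂0, ?_⟩
      rw [← h₁, ← h₂]
      have : (⟨x + y, add_mem hx hy⟩ : FL Ω N) = ⟨x, hx⟩ + ⟨y, hy⟩ := rfl
      rw [this]
      ring
    | inv x hx ih =>
      obtain ⟨A, B, hA, hB, hB0, h⟩ := ih
      by_cases hx0 : x = 0
      · subst hx0
        refine ⟨0, 1, zero_mem _, BCMap.one_mem_V e N, one_ne_zero, ?_⟩
        rw [mul_one]
        exact Subtype.ext inv_zero
      · have hx0' : (⟨x, hx⟩ : FL Ω N) ≠ 0 := fun h0 => hx0 (congrArg Subtype.val h0)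
        refine ⟨B, A, hB, hA, ?_, ?_⟩
        · rw [← h]
          exact mul_ne_zero hx0' hB0
        · have : (⟨x⁻¹, inv_mem hx⟩ : FL Ω N) = (⟨x, hx⟩ : FL Ω N)⁻¹ := rfl
          rw [this, ← h, ← mul_assoc, inv_mul_cancel₀ hx0', one_mul]
    | mul x y hx hy ihx ihy =>
      obtain ⟨A₁, B₁, hA₁, hB₁, hB₁0, h₁⟩ := ihx
      obtain ⟨A₂, B₂, hA₂, hB₂, hB₂0, h₂⟩ := ihy
      refine ⟨A₁ * A₂, B₁ * B₂, BCMap.mul_mem_V e N hA₁ hA₂,
        BCMap.mul_mem_V e N hB₁ hB₂, mul_ne_zero hB₁0 hB₂0, ?_⟩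
      rw [← h₁, ← h₂]
      have : (⟨x * y, mul_mem hx hy⟩ : FL Ω N) = ⟨x, hx⟩ * ⟨y, hy⟩ := rfl
      rw [this]
      ring
  exact key x hx

/-- expansion of an element of the `Ω`-span of `bc(F_k)` in a basis `b` of `Ω` over `e(k)`. -/
theorem BCMap.exists_expansion {ι : Type*} (b : ι → Ω)
    (hb : ∀ a : Ω, ∃ c : ι →₀ k, a = c.sum fun l r => e r * b l)
    {A : FL Ω N} (hA : A ∈ BCMap.V e N) :
    ∃ c : ι →₀ FL k N, A = c.sum fun l f => b l • bc e N f := by
  induction hA using Submodule.closure_induction with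
  | zero => exact ⟨0, by simp⟩
  | add x y _ _ hx hy =>
    obtain ⟨c₁, rfl⟩ := hx
    obtain ⟨c₂, rfl⟩ := hy
    refine ⟨c₁ + c₂, ?_⟩
    rw [Finsupp.sum_add_index' (by simp) (by intro l f g; rw [map_add, smul_add])]
  | smul_mem a x hx =>
    obtain ⟨f, rfl⟩ := hx
    obtain ⟨c, hc⟩ := hb a
    refine ⟨c.mapRange (fun r => r • f) (zero_smul _ _), ?_⟩
    rw [Finsupp.sum_mapRange_index (by simp), hc, Finsupp.sum, Finsupp.sum, Finset.sum_smul]
    refine Finset.sum_congr rfl fun l _ => ?_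
    rw [Algebra.smul_def (c l) f, map_mul, bc_algebraMap, ← Algebra.smul_def, smul_smul, mul_comm]

omit [Algebra ℚ k] [Algebra ℚ Ω] in
/-- a Laurent series with coefficients in `e(k)` comes from `k((q))`. -/
theorem BCMap.exists_coeffMap_eq (x : LaurentSeries Ω) (h : ∀ n : ℤ, x.coeff n ∈ Set.range e) :
    ∃ y : LaurentSeries k, coeffMap e y = x := by
  choose c hc using h
  have hsupp : Function.support c ⊆ x.support := by
    intro n hn
    rw [HahnSeries.mem_support, ← hc n]
    intro h0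
    exact hn (e.injective (by rw [h0, map_zero]))
  refine ⟨⟨c, x.isPWO_support.mono hsupp⟩, ?_⟩
  ext n
  exact hc n

omit [Algebra ℚ Ω] in
theorem BCMap.algebraMap_mul (a : Ω) (x : LaurentSeries Ω) :
    algebraMap Ω (LaurentSeries Ω) a * x = a • x := by
  ext n
  rw [algebraMap_laurentSeries_eq_single, HahnSeries.coeff_single_zero_mul, HahnSeries.coeff_smul,
    smul_eq_mul]

/-- `F_Ω ∩ e(k)((q)) = bc(F_k)`.  Write `φ B = A` as in `exists_span_div`; expand the finitely many coefficients from `Ω` in a basis `w` of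
their `e(k)`-span: `A = ∑ w_l bc(A_l)`, `B = ∑ w_l bc(B_l)`; `φ = coeffMap e φ₀`; then `∑ w_l coeffMap e (φ₀ B_l - A_l) = 0`, so `φ₀ B_l = A_l` for all `l`
by `eq_zero_of_sum_smul_bc`, and some `B_l ≠ 0`. -/
theorem mem_range_bc_iff (φ : FL Ω N) :
    φ ∈ Set.range (bc e N) ↔ ∀ n : ℤ, (φ : LaurentSeries Ω).coeff n ∈ Set.range e := by
  constructor
  · rintro ⟨f, rfl⟩ n
    exact ⟨_, (coeff_bc e N f n).symm⟩
  intro h
  classical
  obtain ⟨φ₀, hφ₀⟩ := BCMap.exists_coeffMap_eq e _ h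
  obtain ⟨A, B, hA, hB, hB0, hAB⟩ := exists_span_div e N φ
  letI : Algebra k Ω := e.toAlgebra
  let b := Module.Basis.ofVectorSpace k Ω
  have hsm : ∀ (r : k) (a : Ω), r • a = e r * a := fun r a => by
    rw [Algebra.smul_def]; rfl
  have hb : ∀ a : Ω, ∃ c : _ →₀ k, a = c.sum fun l r => e r * b l := by
    intro a
    refine ⟨b.repr a, ?_⟩
    conv_lhs => rw [← b.linearCombination_repr a, Finsupp.linearCombination_apply]
    exact Finset.sum_congr rfl fun l _ => hsm _ _
  obtain ⟨cA, hcA⟩ := BCMap.exists_expansion e N b hb hA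
  obtain ⟨cB, hcB⟩ := BCMap.exists_expansion e N b hb hB
  set s := cA.support ∪ cB.support with hs
  have hA' : A = ∑ l ∈ s, b l • bc e N (cA l) := by
    rw [hcA, Finsupp.sum]
    refine Finset.sum_subset Finset.subset_union_left fun l _ hl => ?_
    rw [Finsupp.notMem_support_iff.1 hl, map_zero, smul_zero]
  have hB' : B = ∑ l ∈ s, b l • bc e N (cB l) := by
    rw [hcB, Finsupp.sum]
    refine Finset.sum_subset Finset.subset_union_right fun l _ hl => ?_
    rw [Finsupp.notMem_support_iff.1 hl, map_zero, smul_zero]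
  have hw : ∀ c : _ → k, ∑ i ∈ s, e (c i) * b i = 0 → ∀ i ∈ s, c i = 0 := by
    intro c hc
    refine linearIndependent_iff'.1 b.linearIndependent s c ?_
    rw [← hc]
    exact Finset.sum_congr rfl fun l _ => hsm _ _
  have hcoeS : ∀ (c : _ → FL k N), ((∑ l ∈ s, b l • bc e N (c l) : FL Ω N) : LaurentSeries Ω)
      = ∑ l ∈ s, b l • coeffMap e (c l : LaurentSeries k) := by
    intro c
    rw [← IntermediateField.coe_val, map_sum]
    refine Finset.sum_congr rfl fun l _ => ?_
    rw [Algebra.smul_def, map_mul, AlgHom.commutes, BCMap.algebraMap_mul]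
    rfl
  have hzero : ∑ l ∈ s, b l • coeffMap e (φ₀ * (cB l : LaurentSeries k) - (cA l : LaurentSeries k))
      = 0 := by
    have h1 : (φ : LaurentSeries Ω) * (B : LaurentSeries Ω) = (A : LaurentSeries Ω) :=
      congrArg Subtype.val hAB
    rw [hA', hB', hcoeS, hcoeS, ← hφ₀, Finset.mul_sum] at h1
    rw [← sub_eq_zero, ← Finset.sum_sub_distrib] at h1
    rw [← h1]
    refine Finset.sum_congr rfl fun l _ => ?_
    rw [map_sub, map_mul, smul_sub, ← BCMap.algebraMap_mul, ← BCMap.algebraMap_mul,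
      ← BCMap.algebraMap_mul]
    ring
  have hall := eq_zero_of_sum_smul_bc e s b hw _ hzero
  -- some `cB l ≠ 0`
  obtain ⟨l, hl, hl0⟩ : ∃ l ∈ s, cB l ≠ 0 := by
    by_contra hcon
    push Not at hcon
    apply hB0
    rw [hB']
    refine Finset.sum_eq_zero fun l hl => ?_
    rw [hcon l hl, map_zero, smul_zero]
  have hl0' : (cB l : LaurentSeries k) ≠ 0 := fun h0 => hl0 (Subtype.ext h0)
  have hφ₀eq : φ₀ = (cA l : LaurentSeries k) / (cB l : LaurentSeries k) := by
    rw [eq_div_iff hl0']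
    exact sub_eq_zero.1 (hall l hl)
  have hmem : φ₀ ∈ FL k N := by
    rw [hφ₀eq]
    exact div_mem (cA l).2 (cB l).2
  exact ⟨⟨φ₀, hmem⟩, Subtype.ext hφ₀⟩

end Fermat.Agent.S17.G
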