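import Fermat.Agent.S17.G.BCDeg

/-!
# S17 / G1b : base change of places, divisors and divisor classes along `e : k → Ω` (both algebraically closed of characteristic `0`)

Every place `P` of `F_k` has exactly one extension `extP P` to `F_Ω`, and it is unramified.  Proof by the sum formula
`∑_{zeros of t} ord t = [F : K(t)]` (`S24.FF.sum_ord_zeroPlaces`) over `k` and over `Ω`, for a function `t` whose only zero is `P`.
-/

set_option autoImplicit false
set_option linter.style.haveILetI false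
set_option linter.unusedSectionVars false

open AlgebraicCurve ModularCurve IntermediateField

namespace Fermat.Agent.S17.G

open FF

/-- (generic function field) there is a function whose only zero is `P`: `l((g+1)P) ≥ 2` by `riemann_le`; take the inverse of a non constant
element of `L((g+1)P)`. -/
theorem exists_only_zero {K F : Type*} [Field K] [Field F] [Algebra K F] [IsAlgClosed K] [CharZero K] [IsFF K F]
    (P : Place K F) : ∃ t : F, Transcendental K t ∧ 0 < P.ord t ∧ ∀ P' : Place K F, 0 < P'.ord t → P' = P := by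
  set D : Divisor K F := ((genus K F : ℤ) + 1) • pdiv P with hD
  have hdeg : Divisor.degree D = (genus K F : ℤ) + 1 := by
    rw [hD, map_zsmul, LBasic.degree_pdiv]
    simp
  have hell : (2 : ℤ) ≤ ell D := by
    have := riemann_le D
    rw [hdeg] at this
    omega
  obtain ⟨h, hhD, hh⟩ : ∃ h ∈ LSp D, h ∉ LSp (0 : Divisor K F) := by
    by_contra hcon
    push Not at hcon
    have hle : LSp D ≤ LSp (0 : Divisor K F) := hcon
    have h1 : ell D ≤ ell (0 : Divisor K F) := Submodule.finrank_mono hle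
    rw [ell_zero] at h1
    omega
  have htr : Transcendental K h := by
    intro halg
    obtain ⟨c, hc⟩ := Fermat.Agent.S24.FF.DegOne.exists_algebraMap_eq_of_isAlgebraic K halg
    exact hh (mem_LSp_zero.2 ⟨c, hc.symm⟩)
  have hh0 : h ≠ 0 := by
    rintro rfl
    exact hh (zero_mem _)
  have hord := (mem_LSp.1 hhD).resolve_left hh0
  have honly : ∀ P' : Place K F, 0 < P'.ord h⁻¹ → P' = P := by
    intro P' hP'
    by_contra hne
    have h1 := hord P'
    rw [hD, Finsupp.smul_apply, Finsupp.single_eq_of_ne hne, smul_zero, add_zero] at h1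
    rw [P'.ord_inv] at hP'
    omega
  have htr' := Fermat.Agent.S24.FF.transcendental_inv K htr
  obtain ⟨v, hv⟩ := LBasic.exists_ord_pos htr'
  refine ⟨h⁻¹, htr', ?_, honly⟩
  rw [← honly v hv]
  exact hv

/-- generic restriction of a place along a semilinear embedding of function fields. -/
theorem BCPlace.exists_restrict_generic {k Ω F₁ F₂ : Type*} [Field k] [Field Ω] [Field F₁] [Field F₂]
    [Algebra k F₁] [Algebra Ω F₂] (e : k →+* Ω) (β : F₁ →+* F₂)
    (hβ : ∀ a : k, β (algebraMap k F₁ a) = algebraMap Ω F₂ (e a)) (Q : Place Ω F₂) :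
    (∀ f : F₁, Q.ord (β f) = 0) ∨
    ∃ (P : Place k F₁) (c : ℕ), 0 < c ∧ ∀ f : F₁, Q.ord (β f) = c * P.ord f := by
  by_cases h : ∀ f : F₁, Q.ord (β f) = 0
  · exact Or.inl h
  right
  push Not at h
  obtain ⟨f₀, hf₀⟩ := h
  have hne : ∀ f : F₁, f ≠ 0 → β f ≠ 0 := fun f hf => (map_ne_zero β).2 hf
  obtain ⟨v, c, hc, hv⟩ := Fermat.Agent.S24.FF.exists_place_of_ordFun (K := k) (F := F₁)
    (fun f => Q.ord (β f))
    (fun f g hf hg => by
      show Q.ord (β (f * g)) = _
      rw [map_mul, Q.ord_mul (hne f hf) (hne g hg)])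
    (fun f g hf hg hfg => by
      show _ ≤ Q.ord (β (f + g))
      rw [map_add]
      exact Fermat.Agent.S24.FF.ord_add Q (hne f hf) (hne g hg) (by rw [← map_add]; exact hne _ hfg))
    (fun a _ => by
      show Q.ord (β (algebraMap k F₁ a)) = 0
      rw [hβ, Fermat.Agent.S24.FF.ord_algebraMap])
    ⟨f₀, by rintro rfl; simp at hf₀, hf₀⟩
  refine ⟨v, c, hc, fun f => ?_⟩
  by_cases hf : f = 0
  · subst hf
    simp
  · exact hv f hf

/-- generic existence and uniqueness of the (unramified) extension of a place. -/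
theorem BCPlace.exists_ext_generic {k Ω F₁ F₂ : Type*} [Field k] [Field Ω] [Field F₁] [Field F₂]
    [Algebra k F₁] [Algebra Ω F₂] [IsAlgClosed k] [CharZero k] [IsAlgClosed Ω] [CharZero Ω]
    [IsFF k F₁] [IsFF Ω F₂] (e : k →+* Ω) (β : F₁ →+* F₂)
    (hβ : ∀ a : k, β (algebraMap k F₁ a) = algebraMap Ω F₂ (e a))
    (htr : ∀ t : F₁, Transcendental k t → Transcendental Ω (β t))
    (hdeg : ∀ t : F₁, Transcendental k t → Module.finrank Ω⟮β t⟯ F₂ ≤ Module.finrank k⟮t⟯ F₁)
    (P : Place k F₁) :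
    ∃ Q : Place Ω F₂, (∀ f : F₁, Q.ord (β f) = P.ord f) ∧
      ∀ Q' : Place Ω F₂, (∀ f : F₁, 0 < P.ord f → 0 < Q'.ord (β f)) → Q' = Q := by
  classical
  obtain ⟨t, ht, hPt, honly⟩ := exists_only_zero P
  have hT := htr t ht
  obtain ⟨y₁, _, hfin₁⟩ := IsFF.exists_gen (K := k) (F := F₁)
  obtain ⟨y₂, _, hfin₂⟩ := IsFF.exists_gen (K := Ω) (F := F₂)
  haveI : FiniteDimensional k⟮t⟯ F₁ := Fermat.Agent.S24.FF.finiteDimensional_of_transcendental k y₁ ht
  haveI : FiniteDimensional Ω⟮β t⟯ F₂ :=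
    Fermat.Agent.S24.FF.finiteDimensional_of_transcendental Ω y₂ hT
  -- `n = ord_P t = [F₁ : k(t)]`
  have hn : P.ord t = (Module.finrank k⟮t⟯ F₁ : ℤ) := by
    rw [← Fermat.Agent.S24.FF.sum_ord_zeroPlaces k t ht]
    have : (Fermat.Agent.S24.FF.zeroPlaces_finite k t ht).toFinset = {P} := by
      ext v
      simp only [Set.Finite.mem_toFinset, Fermat.Agent.S24.FF.mem_zeroPlaces, Finset.mem_singleton]
      exact ⟨honly v, fun h => h ▸ hPt⟩
    rw [this, Finset.sum_singleton]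
  set Z := (Fermat.Agent.S24.FF.zeroPlaces_finite Ω (β t) hT).toFinset with hZ
  have hmemZ : ∀ Q : Place Ω F₂, Q ∈ Z ↔ 0 < Q.ord (β t) := by
    intro Q
    simp [hZ, Fermat.Agent.S24.FF.mem_zeroPlaces]
  have hsum : ∑ Q ∈ Z, Q.ord (β t) ≤ P.ord t := by
    rw [hZ, Fermat.Agent.S24.FF.sum_ord_zeroPlaces Ω (β t) hT, hn]
    exact_mod_cast hdeg t ht
  -- every zero of `β t` restricts to `P`
  have hres : ∀ Q ∈ Z, ∃ c : ℕ, 0 < c ∧ ∀ f : F₁, Q.ord (β f) = c * P.ord f := by
    intro Q hQ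
    rw [hmemZ] at hQ
    rcases BCPlace.exists_restrict_generic e β hβ Q with h | ⟨P', c, hc, h⟩
    · rw [h t] at hQ
      omega
    · have h1 : 0 < P'.ord t := by
        rw [h t] at hQ
        by_contra hcon
        have : (c : ℤ) * P'.ord t ≤ 0 :=
          mul_nonpos_of_nonneg_of_nonpos (by positivity) (not_lt.mp hcon)
        omega
      rw [honly P' h1] at h
      exact ⟨c, hc, h⟩
  have hge : ∀ Q ∈ Z, P.ord t ≤ Q.ord (β t) := by
    intro Q hQ
    obtain ⟨c, hc, h⟩ := hres Q hQ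
    rw [h t]
    have : (1 : ℤ) ≤ c := by exact_mod_cast hc
    nlinarith
  have hnonneg : ∀ Q ∈ Z, 0 ≤ Q.ord (β t) := fun Q hQ => ((hmemZ Q).1 hQ).le
  obtain ⟨Q₀, hQ₀⟩ := LBasic.exists_ord_pos hT
  have hQ₀Z : Q₀ ∈ Z := (hmemZ Q₀).2 hQ₀
  have huniq : ∀ Q ∈ Z, Q = Q₀ := by
    intro Q hQ
    by_contra hne
    have h1 : ∑ Q' ∈ ({Q, Q₀} : Finset (Place Ω F₂)), Q'.ord (β t) ≤ ∑ Q' ∈ Z, Q'.ord (β t) := by
      refine Finset.sum_le_sum_of_subset_of_nonneg ?_ fun Q' hQ' _ => hnonneg Q' hQ'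
      intro Q' hQ'
      rw [Finset.mem_insert, Finset.mem_singleton] at hQ'
      rcases hQ' with rfl | rfl
      · exact hQ
      · exact hQ₀Z
    rw [Finset.sum_pair hne] at h1
    have h2 := hge Q hQ
    have h3 := hge Q₀ hQ₀Z
    omega
  obtain ⟨c, hc, h⟩ := hres Q₀ hQ₀Z
  have hc1 : c = 1 := by
    have h1 : Q₀.ord (β t) ≤ ∑ Q' ∈ Z, Q'.ord (β t) :=
      Finset.single_le_sum (f := fun Q' : Place Ω F₂ => Q'.ord (β t)) hnonneg hQ₀Z
    rw [h t] at h1
    have h2 : (c : ℤ) * P.ord t ≤ P.ord t := h1.trans hsum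
    have h3 : (c : ℤ) ≤ 1 := by
      by_contra hcon
      have : (2 : ℤ) ≤ c := by omega
      nlinarith
    have : (c : ℤ) = 1 := by omega
    exact_mod_cast this
  refine ⟨Q₀, fun f => by rw [h f, hc1]; simp, fun Q' hQ' => ?_⟩
  exact huniq Q' ((hmemZ Q').2 (hQ' t hPt))

variable {k Ω : Type} [Field k] [Field Ω] [Algebra ℚ k] [Algebra ℚ Ω] (e : k →+* Ω) (N : ℕ)
variable [NeZero N] [IsAlgClosed k] [CharZero k] [IsAlgClosed Ω] [CharZero Ω]

/-- restriction of a place of `F_Ω` to `F_k` (`S24.FF.exists_place_of_ordFun` applied to `f ↦ ord_Q (bc f)`). -/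
theorem exists_restrict (Q : PlL Ω N) : (∀ f : FL k N, Q.ord (bc e N f) = 0) ∨
    ∃ (P : PlL k N) (c : ℕ), 0 < c ∧ ∀ f : FL k N, Q.ord (bc e N f) = c * P.ord f :=
  BCPlace.exists_restrict_generic e (bc e N) (bc_algebraMap e N) Q

/-- Let `t` be as in `exists_only_zero`, `n = ord_P t = [F_k : k(t)]`.  Every zero `Q` of `bc t` restricts to a zero of `t`, i.e. to `P`, so `ord_Q (bc t) = c_Q n`;
there is at least one zero; `∑_Q c_Q n = [F_Ω : Ω(bc t)] ≤ n` (`finrank_bc_le`).  So there is exactly one `Q` and `c_Q = 1`. -/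
theorem exists_extP (P : PlL k N) : ∃ Q : PlL Ω N, (∀ f : FL k N, Q.ord (bc e N f) = P.ord f) ∧
    ∀ Q' : PlL Ω N, (∀ f : FL k N, 0 < P.ord f → 0 < Q'.ord (bc e N f)) → Q' = Q :=
  BCPlace.exists_ext_generic e (bc e N) (bc_algebraMap e N)
    (fun _ ht => transcendental_bc e N ht) (fun _ ht => finrank_bc_le e N ht) P

/-- the extension of a place -/
noncomputable def extP (P : PlL k N) : PlL Ω N := (exists_extP e N P).choose

variable {N}

theorem ord_extP (P : PlL k N) (f : FL k N) : (extP e N P).ord (bc e N f) = P.ord f :=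
  (exists_extP e N P).choose_spec.1 f

theorem eq_extP_of_pos {P : PlL k N} {Q : PlL Ω N}
    (h : ∀ f : FL k N, 0 < P.ord f → 0 < Q.ord (bc e N f)) : Q = extP e N P :=
  (exists_extP e N P).choose_spec.2 Q h

theorem extP_injective : Function.Injective (extP e N : PlL k N → PlL Ω N) := by
  intro P P' h
  refine Fermat.Agent.S24.FF.eq_of_forall_ord_nonneg fun f hf => ?_
  rw [← ord_extP e P' f, ← h, ord_extP]
  exact hf

theorem eq_extP_or (Q : PlL Ω N) : (∃ P : PlL k N, Q = extP e N P) ∨ ∀ f : FL k N, Q.ord (bc e N f) = 0 := by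
  rcases exists_restrict e N Q with h | ⟨P, c, hc, h⟩
  · exact Or.inr h
  · left
    refine ⟨P, eq_extP_of_pos e fun f hf => ?_⟩
    rw [h f]
    positivity

theorem extP_infP : extP e N (infP k N) = infP Ω N := by
  symm
  refine eq_extP_of_pos e fun f hf => ?_
  have hf0 : f ≠ 0 := Fermat.Agent.S24.FF.ne_zero_of_ord_ne_zero _ hf.ne'
  have hbf0 : bc e N f ≠ 0 := (map_ne_zero (bc e N)).2 hf0
  rw [infP_ord hf0] at hf
  rw [infP_ord hbf0, order_bc]
  exact hf

theorem val_extP (P : PlL k N) {f : FL k N} (hf : 0 ≤ P.ord f) :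
    val (extP e N P) (bc e N f) = e (val P f) := by
  apply val_eq_of
  rcases val_spec P hf with h | h
  · left
    conv_lhs => rw [h]
    rw [bc_algebraMap]
  · right
    rw [← bc_algebraMap, ← map_sub, ord_extP]
    exact h

end Fermat.Agent.S17.G
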