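import Fermat.Agent.S17.G.Frame

/-!
# S17 / G : divisor classes of `F_L`: the classes `ctup η = [η_1 + … + η_n - n ∞]`, Galois action, minimal representatives
-/

set_option autoImplicit false

open AlgebraicCurve ModularCurve IntermediateField

namespace Fermat.Agent.S17.G

open FF

variable {L : Type} [Field L] [Algebra ℚ L] {N : ℕ} [NeZero N] [IsAlgClosed L] [CharZero L]

/-! ### classes -/

variable (L N) in
/-- the class of a divisor of degree `0` -/
noncomputable def clsL (D : DvL L N) (hD : Divisor.degree D = 0) : JL L N := Pic0.mk ⟨D, hD⟩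

theorem exists_clsL (x : JL L N) : ∃ (D : DvL L N) (hD : Divisor.degree D = 0), x = clsL L N D hD := by
  obtain ⟨⟨D, hD⟩, rfl⟩ := Pic0.mk_surjective x
  exact ⟨D, hD, rfl⟩

theorem clsL_eq_iff {D D' : DvL L N} (hD : Divisor.degree D = 0) (hD' : Divisor.degree D' = 0) :
    clsL L N D hD = clsL L N D' hD' ↔ LinEq D D' := by
  unfold clsL Pic0.mk LinEq
  rw [QuotientAddGroup.eq, AddSubgroup.mem_addSubgroupOf, ← Divisor.mem_principal,
    ← neg_mem_iff (H := Divisor.principal (K := L) (F := FL L N))]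
  have : -(((-(⟨D, hD⟩ : Divisor.degZero (K := L) (F := FL L N)) + ⟨D', hD'⟩ :
      Divisor.degZero (K := L) (F := FL L N)) : DvL L N)) = D - D' := by
    push_cast
    abel
  rw [this]

theorem clsL_add {D D' : DvL L N} (hD : Divisor.degree D = 0) (hD' : Divisor.degree D' = 0) :
    clsL L N D hD + clsL L N D' hD' = clsL L N (D + D') (by rw [map_add, hD, hD', add_zero]) := by
  rfl

theorem smul_clsL (σ : L ≃ₐ[ℚ] L) {D : DvL L N} (hD : Divisor.degree D = 0) :
    σ • clsL L N D hD = clsL L N (gal L N σ • D) (by rw [SemilinearAut.degree_smul, hD]) := by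
  rfl

theorem degree_tdiv_sub {n : ℕ} (η : Fin n → PlL L N) :
    Divisor.degree (tdiv η - n • pdiv (infP L N)) = 0 := by
  rw [map_sub, degree_tdiv, map_nsmul, LBasic.degree_pdiv]
  simp

variable (L N) in
/-- the class `[η_1 + … + η_n - n∞]` -/
noncomputable def ctup {n : ℕ} (η : Fin n → PlL L N) : JL L N :=
  clsL L N (tdiv η - n • pdiv (infP L N)) (degree_tdiv_sub η)

theorem gal_smul_tdiv (σ : L ≃ₐ[ℚ] L) {n : ℕ} (η : Fin n → PlL L N) :
    gal L N σ • tdiv η = tdiv (fun i => gal L N σ • η i) := by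
  unfold tdiv
  rw [Finset.smul_sum]
  exact Finset.sum_congr rfl (fun i _ => SemilinearAut.smul_single _ _ _)

theorem smul_ctup (σ : L ≃ₐ[ℚ] L) {n : ℕ} (η : Fin n → PlL L N) :
    σ • ctup L N η = ctup L N (fun i => gal L N σ • η i) := by
  unfold ctup
  rw [smul_clsL]
  have h : gal L N σ • (tdiv η - n • pdiv (infP L N)) =
      tdiv (fun i => gal L N σ • η i) - n • pdiv (infP L N) := by
    rw [smul_sub, gal_smul_tdiv, smul_comm, SemilinearAut.smul_single, gal_smul_infP]
  congr 1

/-- minimal representative of a class, as a tuple (from `exists_minRep`, `exists_tdiv_eq`). -/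
theorem exists_ctup_min (x : JL L N) : ∃ (d : ℕ) (Q : Fin d → PlL L N), d ≤ genus L (FL L N) ∧
    (∀ i, Q i ≠ infP L N) ∧ x = ctup L N Q ∧ ell (tdiv Q) = 1 := by
  classical
  obtain ⟨D, hD, rfl⟩ := exists_clsL x
  obtain ⟨d, E, hE, hdeg, hdg, hEo, hlin, hell, -⟩ := exists_minRep (infP L N) D hD
  obtain ⟨Q, rfl⟩ := exists_tdiv_eq hE hdeg
  refine ⟨d, Q, hdg, ?_, ?_, hell⟩
  · intro i hi
    have h1 : (1 : ℤ) ≤ tdiv Q (infP L N) := by
      unfold tdiv
      rw [Finsupp.finsetSum_apply]
      have h2 : (pdiv (Q i) : DvL L N) (infP L N) = 1 := by rw [hi]; simp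
      rw [← h2]
      exact Finset.single_le_sum (f := fun j => (pdiv (Q j) : DvL L N) (infP L N))
        (fun j _ => by
          show (0 : ℤ) ≤ (Finsupp.single (Q j) (1 : ℤ)) (infP L N)
          rw [Finsupp.single_apply]; split_ifs <;> norm_num) (Finset.mem_univ i)
    omega
  · unfold ctup
    rw [eq_comm, clsL_eq_iff]
    exact hlin

/-- an effective divisor `E` with `l(E) = 1` is the only effective divisor in its class -/
theorem eq_of_linEq_of_ell_eq_one {E E' : DvL L N} (hE : 0 ≤ E) (hE' : 0 ≤ E') (h1 : ell E = 1)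
    (h : LinEq E' E) : E' = E := by
  rw [LinEq, isPrincipal_iff] at h
  obtain ⟨f, hf, hfE⟩ := h
  have hE'eq : E' = divf f + E := by rw [← hfE]; abel
  have hfmem : f ∈ LSp E := (mem_LSp_iff_divf hf).2 (hE'eq ▸ hE')
  have h1mem : (1 : FL L N) ∈ LSp E := by
    refine (mem_LSp_iff_divf one_ne_zero).2 ?_
    have : divf (K := L) (1 : FL L N) = 0 := by ext v; simp
    rw [this, zero_add]; exact hE
  have hne : (⟨1, h1mem⟩ : LSp E) ≠ 0 := by
    intro h0
    exact one_ne_zero (congrArg Subtype.val h0)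
  obtain ⟨c, hc⟩ := (finrank_eq_one_iff_of_nonzero' (⟨1, h1mem⟩ : LSp E) hne).1 h1 ⟨f, hfmem⟩
  have hc' : c • (1 : FL L N) = f := congrArg Subtype.val hc
  have hc0 : c ≠ 0 := by
    rintro rfl
    rw [zero_smul] at hc'
    exact hf hc'.symm
  have hdiv : divf (K := L) f = 0 := by
    rw [← hc', MinRep.divf_smul hc0]
    ext v; simp
  rw [hE'eq, hdiv, zero_add]

/-- semilinear invariance of `l(D)` -/
theorem ell_gal_smul (σ : L ≃ₐ[ℚ] L) (D : DvL L N) : ell (gal L N σ • D) = ell D := by
  have hinv : ∀ f : FL L N, f ∈ LSp (gal L N σ • D) → (gal L N σ)⁻¹ • f ∈ LSp D := by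
    intro f hf
    have h2 : (gal L N σ)⁻¹ = gal L N σ⁻¹ := (map_inv _ _).symm
    have := gal_smul_mem_LSp σ⁻¹ hf
    rw [← h2, inv_smul_smul] at this
    exact this
  let j : LSp D ≃+ LSp (gal L N σ • D) :=
    { toFun := fun f => ⟨gal L N σ • (f : FL L N), gal_smul_mem_LSp σ f.2⟩
      invFun := fun f => ⟨(gal L N σ)⁻¹ • (f : FL L N), hinv f f.2⟩
      left_inv := fun f => Subtype.ext (inv_smul_smul _ _)
      right_inv := fun f => Subtype.ext (smul_inv_smul _ _)
      map_add' := fun f g => Subtype.ext (smul_add _ _ _) }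
  have hsemi : ∀ (r : L) (m : FL L N),
      gal L N σ • (r • m) = σ r • (gal L N σ • m) := by
    intro r m
    have h1 : gal L N σ • (algebraMap L (FL L N) r * m) =
        (gal L N σ • algebraMap L (FL L N) r) * (gal L N σ • m) :=
      map_mul (SemilinearAut.toRingAut (gal L N σ)) _ _
    have h2 : gal L N σ • algebraMap L (FL L N) r = algebraMap L (FL L N) (σ r) :=
      SemilinearAut.smul_algebraMap (gal L N σ) r
    rw [Algebra.smul_def r m, h1, h2]
    exact (Algebra.smul_def (σ r) (gal L N σ • m)).symm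
  have hr := rank_eq_of_equiv_equiv (σ : L → L) j σ.bijective
    (fun r m => Subtype.ext (hsemi r (m : FL L N)))
  unfold ell Module.finrank
  rw [hr]

end Fermat.Agent.S17.G
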