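import Fermat.Agent.S17.FF.Bpf

/-!
# S17 / G4 : a divisor `D` with `l(D + P) = l(D) + 1` for infinitely many `P` is non special (generic function field)
-/

set_option autoImplicit false

open AlgebraicCurve IntermediateField

namespace Fermat.Agent.S17.G

open FF

/-- If `l(D + P) = l(D) + 1` for all `P` in an infinite set `T`, then `D` is non special.
Proof: for distinct `P_1, …, P_m ∈ T`, `l(D + P_1 + … + P_m) ≥ l(D) + m` (induction: `f ∈ L(D + P_m) \ L(D)` has `ord_{P_m} f = -D(P_m) - 1`,
so `f ∈ L(D + P_1 + … + P_m) \ L(D + P_1 + … + P_{m-1})`); take `m` with `deg D + m ≥ rc` and use `riemann_eq`, `riemann_le`.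
(generic function field) -/
theorem nonspecial_of_infinite {K F : Type*} [Field K] [Field F] [Algebra K F] [IsAlgClosed K] [CharZero K] [IsFF K F]
    (D : Divisor K F) (T : Set (Place K F)) (hT : T.Infinite) (h : ∀ P ∈ T, ell (D + pdiv P) = ell D + 1) :
    (ell D : ℤ) = Divisor.degree D + 1 - genus K F := by
  classical
  have hpos : ∀ P : Place K F, (0 : Divisor K F) ≤ pdiv P := fun P =>
    Finsupp.single_nonneg.2 zero_le_one
  have key : ∀ s : Finset (Place K F), (↑s ⊆ T) →
      ell D + s.card ≤ ell (D + ∑ P ∈ s, pdiv P) := by
    intro s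
    induction s using Finset.induction_on with
    | empty => intro _; simp
    | insert P s hPs ih =>
      intro hsT
      have hP : P ∈ T := hsT (by simp)
      have hs : (↑s ⊆ T) := fun x hx => hsT (by
        rw [Finset.coe_insert]; exact Set.mem_insert_of_mem _ hx)
      have ih' := ih hs
      set E := D + ∑ Q ∈ s, pdiv Q with hE
      have hEP : E P = D P := by
        rw [hE, Finsupp.add_apply, Finsupp.finsetSum_apply, Finset.sum_eq_zero, add_zero]
        intro Q hQ
        exact Finsupp.single_eq_of_ne (by rintro rfl; exact hPs hQ)
      have hDE : D ≤ E := by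
        rw [hE]
        exact le_add_of_nonneg_right (Finset.sum_nonneg fun Q _ => hpos Q)
      have hlt : LSp D < LSp (D + pdiv P) := by
        refine lt_of_le_of_ne (LSp_mono (le_add_of_nonneg_right (hpos P))) ?_
        intro heq
        have := h P hP
        unfold ell at this
        rw [← heq] at this
        omega
      obtain ⟨f, hf, hf'⟩ := SetLike.exists_of_lt hlt
      have hlt2 : LSp E < LSp (E + pdiv P) := by
        refine SetLike.lt_iff_le_and_exists.2 ⟨LSp_mono (le_add_of_nonneg_right (hpos P)), f,
          LSp_mono (add_le_add_left hDE _) hf, ?_⟩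
        intro hfE
        apply hf'
        rcases hf with rfl | hf
        · exact zero_mem _
        rcases hfE with rfl | hfE
        · exact zero_mem _
        right
        intro w
        by_cases hw : w = P
        · subst hw
          rw [← hEP]
          exact hfE w
        · have := hf w
          rwa [Finsupp.add_apply, Finsupp.single_eq_of_ne hw, add_zero] at this
      have hfr := Submodule.finrank_lt_finrank_of_lt hlt2
      rw [Finset.sum_insert hPs, Finset.card_insert_of_notMem hPs]
      have e : D + (pdiv P + ∑ Q ∈ s, pdiv Q) = E + pdiv P := by rw [hE]; abel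
      rw [e]
      unfold ell at *
      omega
  obtain ⟨s, hsT, hcard⟩ := hT.exists_subset_card_eq (rc K F - Divisor.degree D).toNat
  have h1 := key s hsT
  have hdeg : Divisor.degree (D + ∑ P ∈ s, pdiv P) = Divisor.degree D + s.card := by
    rw [map_add, map_sum, Finset.sum_congr rfl (fun P _ => LBasic.degree_pdiv P)]
    simp
  have h2 := riemann_eq (D := D + ∑ P ∈ s, pdiv P) (by rw [hdeg, hcard]; omega)
  have h3 := riemann_le D
  rw [hdeg] at h2
  omega

end Fermat.Agent.S17.G
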