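import Fermat.Agent.S17.G.Orbit
import Fermat.Agent.S17.G.NonSpecial

/-!
# S17 / G4 : a generic tuple of `g` places is non special: `l(η_1 + … + η_g) = 1`
-/

set_option autoImplicit false

open AlgebraicCurve ModularCurve IntermediateField

namespace Fermat.Agent.S17.G

open FF

variable {N : ℕ} [NeZero N]

/-- G4'. -/
theorem ell_add_pdiv_of_infinite_orbP (K : IntermediateField ℚ ℂ) (D : DvL ℂ N)
    (hD : ∀ σ ∈ K.fixingSubgroup, gal ℂ N σ • D = D) (η : PlL ℂ N) (hη : (orbP K η).Infinite)
    (hr : Divisor.degree D + 1 - genus ℂ (FL ℂ N) < ell D) : ell (D + pdiv η) = ell D := by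
  have h1 : ell D ≤ ell (D + pdiv η) :=
    ell_mono (le_add_of_nonneg_right (Finsupp.single_nonneg.2 zero_le_one))
  have h2 := ell_add_pdiv_le D η
  by_contra hne
  have h3 : ell (D + pdiv η) = ell D + 1 := by omega
  have h4 := nonspecial_of_infinite D (orbP K η) hη (by
    rintro P ⟨σ, hσ, rfl⟩
    have e : D + pdiv (gal ℂ N σ • η) = gal ℂ N σ • (D + pdiv η) := by
      rw [smul_add, hD σ hσ, SemilinearAut.smul_single]
    rw [e, ell_gal_smul, h3])
  omega

/-- induction on `n`, for all countable `K` and all `Γ(K)`-stable `D` -/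
theorem ell_add_tdiv_of_isGen (K : IntermediateField ℚ ℂ) [Countable K] {n : ℕ} (η : Fin n → PlL ℂ N)
    (hη : IsGen K η) (D : DvL ℂ N) (hD : ∀ σ ∈ K.fixingSubgroup, gal ℂ N σ • D = D)
    (hr : Divisor.degree D + 1 - genus ℂ (FL ℂ N) + n ≤ ell D) : ell (D + tdiv η) = ell D := by
  induction n generalizing K D with
  | zero => simp [tdiv]
  | succ n ih =>
    have hinf : (orbP K (η 0)).Infinite :=
      infinite_orbP_of_transcendental K (hη.1 0) hη.transcendental_zero
    have h0 : ell (D + pdiv (η 0)) = ell D :=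
      ell_add_pdiv_of_infinite_orbP K D hD (η 0) hinf (by push_cast at hr; omega)
    have hc : Countable (fldP K (η 0)) := countable_fldP K (η 0)
    have h1 := ih (fldP K (η 0)) (fun i : Fin n => η i.succ) hη.tail (D + pdiv (η 0))
      (by
        intro σ hσ
        rw [smul_add, hD σ (IntermediateField.fixingSubgroup_le (le_fldP K (η 0)) hσ),
          SemilinearAut.smul_single, gal_smul_eq_of_mem_fldP (hη.1 0) hσ])
      (by
        rw [h0, map_add, LBasic.degree_pdiv]
        push_cast at hr
        omega)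
    have e : D + tdiv η = D + pdiv (η 0) + tdiv (fun i : Fin n => η i.succ) := by
      unfold tdiv
      rw [Fin.sum_univ_succ, add_assoc]
    rw [e, h1, h0]

/-- G4. -/
theorem ell_tdiv_of_isGen (K : IntermediateField ℚ ℂ) [Countable K]
    (η : Fin (genus ℂ (FL ℂ N)) → PlL ℂ N) (hη : IsGen K η) : ell (tdiv η) = 1 := by
  have h := ell_add_tdiv_of_isGen K η hη 0 (fun σ _ => smul_zero _) (by
    rw [map_zero, ell_zero]
    push_cast
    omega)
  rwa [zero_add, ell_zero] at h

end Fermat.Agent.S17.G
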