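import Fermat.Agent.S17.G.Trdeg

/-!
# S17 / G2 : the exchange lemma for transcendence degree (pure field theory)
-/

set_option autoImplicit false

open IntermediateField

namespace Fermat.Agent.S17.G

open Trdeg

/-- Exchange: `g` algebraically independent numbers which are algebraic over `K(c_1, …, c_d)`, `d ≤ g`.
(The algebraic independence matroid of `ℂ / K`.) -/
theorem exchange (K : IntermediateField ℚ ℂ) {g d : ℕ} (a : Fin g → ℂ) (c : Fin d → ℂ)
    (ha : AlgebraicIndependent K a) (hdg : d ≤ g)
    (halg : ∀ i, IsAlgebraic (adj K (Set.range c)) (a i)) :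
    d = g ∧ AlgebraicIndependent K c := by
  set M := AlgebraicIndependent.matroid K ℂ with hM
  have hI : M.Indep (Set.range a) := by
    rw [hM, AlgebraicIndependent.matroid_indep_iff]
    exact ha.to_subtype_range
  have hsub : Set.range a ⊆ M.closure (Set.range c) := by
    rintro _ ⟨i, rfl⟩
    rw [hM, AlgebraicIndependent.matroid_closure_eq]
    exact (isAlgebraic_adj_iff K _ _).1 (halg i)
  have h1 : (Set.range a).encard = g := by
    rw [← Set.image_univ, ha.injective.encard_image]
    simp
  have h2 : (Set.range c).encard ≤ d := by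
    rw [← Set.image_univ]
    refine (Set.encard_image_le _ _).trans ?_
    simp
  have h3 : (Set.range a).encard ≤ M.eRk (Set.range c) := by
    rw [← hI.eRk_eq_encard, ← M.eRk_closure_eq (Set.range c)]
    exact M.eRk_mono hsub
  have h4 : M.eRk (Set.range c) ≤ (Set.range c).encard := M.eRk_le_encard _
  have h5 : (g : ℕ∞) ≤ d := by
    rw [← h1]; exact h3.trans (h4.trans h2)
  have h6 : g ≤ d := by exact_mod_cast h5
  have hgd : d = g := le_antisymm hdg h6
  subst hgd
  refine ⟨rfl, ?_⟩
  have h7 : (Set.range c).encard = d := le_antisymm h2 (h1 ▸ h3.trans h4)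
  have h8 : M.eRk (Set.range c) = (Set.range c).encard :=
    le_antisymm h4 (h7 ▸ h1 ▸ h3)
  have hind : M.Indep (Set.range c) :=
    (Matroid.indep_iff_eRk_eq_encard_of_finite (Set.finite_range c)).2 h8
  have hinj : Function.Injective c := by
    have hh : (c '' Set.univ).encard = (Set.univ : Set (Fin d)).encard := by
      rw [Set.image_univ, h7]; simp
    exact Set.injOn_univ.1 (Set.finite_univ.injOn_of_encard_image_eq hh)
  rw [hM, AlgebraicIndependent.matroid_indep_iff] at hind
  exact (algebraicIndependent_subtype_range hinj).1 hind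

end Fermat.Agent.S17.G
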