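import Fermat.Agent.S17.Curve.Base

/-!
# S17 / G : rational coordinates of places of `F_L` (`L` algebraically closed of characteristic `0`; used for `L = ℂ` and `L = ℚ̄`)

A basis `fr i` of `L(lev·∞)` consisting of functions fixed by all coefficientwise automorphisms (echelon trick),
the coordinates `crdP v i = (fr i)(v)` of a place `v ≠ ∞`, a non constant coordinate `tv`.
Also: the classes `ctup η = [η_1 + … + η_n - n ∞]` and general API for the Galois action on `Pic0`.
-/

set_option autoImplicit false

open AlgebraicCurve ModularCurve IntermediateField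

namespace Fermat.Agent.S17.G

open FF

variable (L : Type) [Field L] [Algebra ℚ L] (N : ℕ) [NeZero N] [IsAlgClosed L] [CharZero L]

/-- places of `F_L` -/
abbrev PlL : Type := Place L (FL L N)

/-- divisors of `F_L` -/
abbrev DvL : Type := Divisor L (FL L N)

/-- the Jacobian `Pic⁰(F_L)` -/
abbrev JL : Type := Pic0 L (FL L N)

/-- the level of the embedding -/
noncomputable def lev : ℕ := (rc L (FL L N)).toNat + 2

/-- the divisor `lev·∞` -/
noncomputable def levD : DvL L N := lev L N • pdiv (infP L N)

/-- number of coordinates -/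
noncomputable def nfr : ℕ := Module.finrank L (LSp (levD L N))

theorem exists_fr : ∃ b : Module.Basis (Fin (nfr L N)) L (LSp (levD L N)),
    ∀ (σ : L ≃ₐ[ℚ] L) (i : Fin (nfr L N)), gal L N σ • (b i : FL L N) = b i := by
  have : FiniteDimensional L (LSp (levD L N)) := finiteDimensional_LSp _
  obtain ⟨b, hb⟩ := exists_fixed_basis (L := L) (N := N) Set.univ (LSp (levD L N)) (by
    intro σ _ f hf
    have := gal_smul_mem_LSp σ hf
    rwa [levD, smul_comm, SemilinearAut.smul_single, gal_smul_infP] at this)
  exact ⟨b, fun σ i => hb σ (Set.mem_univ _) i⟩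

/-- the rational frame -/
noncomputable def frB : Module.Basis (Fin (nfr L N)) L (LSp (levD L N)) := (exists_fr L N).choose

/-- the functions of the rational frame -/
noncomputable def fr (i : Fin (nfr L N)) : FL L N := (frB L N i : FL L N)

/-- coordinates of a place (junk at `∞`) -/
noncomputable def crdP (v : PlL L N) : Fin (nfr L N) → L := fun i => val v (fr L N i)

variable {L N}

theorem gal_smul_fr (σ : L ≃ₐ[ℚ] L) (i : Fin (nfr L N)) : gal L N σ • fr L N i = fr L N i :=
  (exists_fr L N).choose_spec σ i

theorem fr_mem (i : Fin (nfr L N)) : fr L N i ∈ LSp (levD L N) := (frB L N i).2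

theorem levD_apply_of_ne {v : PlL L N} (hv : v ≠ infP L N) : levD L N v = 0 := by
  rw [levD, Finsupp.smul_apply, Finsupp.single_eq_of_ne hv, smul_zero]

theorem ord_nonneg_of_mem_levD {v : PlL L N} (hv : v ≠ infP L N) {f : FL L N} (hf : f ∈ LSp (levD L N)) :
    0 ≤ v.ord f := by
  rcases (mem_LSp.mp hf) with h | h
  · rw [h]; simp
  · have := h v
    rwa [levD_apply_of_ne hv, add_zero] at this

theorem ord_fr_nonneg {v : PlL L N} (hv : v ≠ infP L N) (i : Fin (nfr L N)) : 0 ≤ v.ord (fr L N i) :=
  ord_nonneg_of_mem_levD hv (fr_mem i)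

theorem gal_smul_ne_infP (σ : L ≃ₐ[ℚ] L) {v : PlL L N} (hv : v ≠ infP L N) :
    gal L N σ • v ≠ infP L N := by
  intro h
  apply hv
  have h2 : gal L N σ • v = gal L N σ • infP L N := by rw [h, gal_smul_infP]
  exact MulAction.injective _ h2

theorem crdP_gal (σ : L ≃ₐ[ℚ] L) {v : PlL L N} (hv : v ≠ infP L N) (i : Fin (nfr L N)) :
    crdP L N (gal L N σ • v) i = σ (crdP L N v i) := by
  have h := val_smul_semilinear (gal L N σ) v (ord_fr_nonneg hv i)
  rw [gal_smul_fr] at h
  exact h

/-- evaluation at `v ≠ ∞` as a linear form on `L(lev·∞)` -/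
noncomputable def evL {v : PlL L N} (hv : v ≠ infP L N) : LSp (levD L N) →ₗ[L] L where
  toFun f := val v (f : FL L N)
  map_add' f g := val_add v (ord_nonneg_of_mem_levD hv f.2) (ord_nonneg_of_mem_levD hv g.2)
  map_smul' c f := val_smul v c (ord_nonneg_of_mem_levD hv f.2)

theorem degree_levD : Divisor.degree (levD L N) = lev L N := by
  rw [levD, map_nsmul, LBasic.degree_pdiv]
  simp

theorem rc_add_two_le_lev : rc L (FL L N) + 2 ≤ (lev L N : ℤ) := by
  rw [lev]
  push_cast
  rw [Int.toNat_of_nonneg rc_nonneg]

/-- `L(lev·∞)` separates points (`ell_sub_pdiv` twice: there is `f ∈ L(lev∞ - v)` with `f(w) ≠ 0`). -/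
theorem crdP_injective {v w : PlL L N} (hv : v ≠ infP L N) (hw : w ≠ infP L N)
    (h : crdP L N v = crdP L N w) : v = w := by
  by_contra hvw
  have hev : evL hv = evL hw := by
    refine (frB L N).ext fun i => ?_
    exact congrFun h i
  have hdeg : rc L (FL L N) + 1 ≤ Divisor.degree (levD L N - pdiv v) := by
    rw [map_sub, degree_levD, LBasic.degree_pdiv]
    have := rc_add_two_le_lev (L := L) (N := N)
    omega
  have hell := ell_sub_pdiv hdeg w
  obtain ⟨f, hf1, hf2⟩ : ∃ f ∈ LSp (levD L N - pdiv v), f ∉ LSp (levD L N - pdiv v - pdiv w) := by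
    by_contra hcon
    push Not at hcon
    have hle : LSp (levD L N - pdiv v) ≤ LSp (levD L N - pdiv v - pdiv w) := hcon
    have : ell (levD L N - pdiv v) ≤ ell (levD L N - pdiv v - pdiv w) := Submodule.finrank_mono hle
    omega
  have hf0 : f ≠ 0 := fun h0 => hf2 (h0 ▸ zero_mem _)
  have hfl : f ∈ LSp (levD L N) := LSp_mono (sub_le_self _ (by
    intro u; simp only [Finsupp.coe_zero, Pi.zero_apply]; exact Finsupp.single_nonneg.2 zero_le_one u)) hf1
  have hall := (mem_LSp.mp hf1).resolve_left hf0
  have h1 : val v f = 0 := by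
    rw [val_eq_zero_iff v (ord_nonneg_of_mem_levD hv hfl)]
    right
    have := hall v
    rw [Finsupp.sub_apply, levD_apply_of_ne hv, Finsupp.single_eq_same] at this
    omega
  have h2 : val w f ≠ 0 := by
    rw [Ne, val_eq_zero_iff w (ord_nonneg_of_mem_levD hw hfl)]
    rintro (h0 | h0)
    · exact hf0 h0
    apply hf2
    right
    intro u
    have hu := hall u
    by_cases huw : u = w
    · subst huw
      rw [Finsupp.sub_apply, Finsupp.sub_apply, levD_apply_of_ne hw,
        Finsupp.single_eq_of_ne (Ne.symm hvw), Finsupp.single_eq_same]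
      omega
    · rw [Finsupp.sub_apply (levD L N - pdiv v), Finsupp.single_eq_of_ne huw]
      omega
  have h3 : evL hv ⟨f, hfl⟩ = evL hw ⟨f, hfl⟩ := by rw [hev]
  have h4 : val v f = val w f := h3
  exact h2 (h4 ▸ h1)

theorem gal_smul_eq_self_iff (σ : L ≃ₐ[ℚ] L) {v : PlL L N} (hv : v ≠ infP L N) :
    gal L N σ • v = v ↔ ∀ i, σ (crdP L N v i) = crdP L N v i := by
  constructor
  · intro h i
    rw [← crdP_gal σ hv, h]
  · intro h
    refine crdP_injective (gal_smul_ne_infP σ hv) hv ?_
    funext i
    rw [crdP_gal σ hv, h]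

variable (L N) in
/-- some function of the frame is not constant (`nfr ≥ 2`) -/
theorem exists_fr_transcendental : ∃ i : Fin (nfr L N), Transcendental L (fr L N i) := by
  by_contra hcon
  push Not at hcon
  -- all the `fr i` are constants, so `L(lev∞) ⊆ L(0)`
  have hle : LSp (levD L N) ≤ LSp (0 : DvL L N) := by
    intro f hf
    have hspan : (⟨f, hf⟩ : LSp (levD L N)) ∈ Submodule.span L (Set.range (frB L N)) := by
      rw [(frB L N).span_eq]; trivial
    have hmap : ∀ x : LSp (levD L N), x ∈ Submodule.span L (Set.range (frB L N)) →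
        (x : FL L N) ∈ LSp (0 : DvL L N) := by
      intro x hx
      induction hx using Submodule.span_induction with
      | mem y hy =>
        obtain ⟨i, rfl⟩ := hy
        obtain ⟨c, hc⟩ := Fermat.Agent.S24.FF.mem_range_of_not_transcendental L (hcon i)
        exact mem_LSp_zero.2 ⟨c, hc.symm⟩
      | zero => exact zero_mem _
      | add y z _ _ hy hz => exact add_mem hy hz
      | smul c y _ hy => exact Submodule.smul_mem _ c hy
    exact hmap _ hspan
  have h1 : ell (levD L N) ≤ ell (0 : DvL L N) := Submodule.finrank_mono hle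
  rw [ell_zero] at h1
  have h2 := ell_sub_pdiv (D := levD L N) (by
    rw [degree_levD]; have := rc_add_two_le_lev (L := L) (N := N); omega) (infP L N)
  have h3 := ell_sub_pdiv (D := levD L N - pdiv (infP L N)) (by
    rw [map_sub, degree_levD, LBasic.degree_pdiv]
    have := rc_add_two_le_lev (L := L) (N := N); omega) (infP L N)
  omega

variable (L N) in
/-- index of the distinguished non constant coordinate -/
noncomputable def i0 : Fin (nfr L N) := (exists_fr_transcendental L N).choose

variable (L N) in
/-- the distinguished non constant function, with its only pole at `∞` -/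
noncomputable def tF : FL L N := fr L N (i0 L N)

theorem transcendental_tF : Transcendental L (tF L N) := (exists_fr_transcendental L N).choose_spec

variable (L N) in
/-- the distinguished coordinate of a place -/
noncomputable def tv (v : PlL L N) : L := crdP L N v (i0 L N)

theorem tv_gal (σ : L ≃ₐ[ℚ] L) {v : PlL L N} (hv : v ≠ infP L N) :
    tv L N (gal L N σ • v) = σ (tv L N v) := crdP_gal σ hv _

/-- the fibres of `t` are finite (zeros of `t - c`) -/
theorem finite_tv_eq (c : L) : {v : PlL L N | v ≠ infP L N ∧ tv L N v = c}.Finite := by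
  refine (finite_ord_ne_zero (K := L) (tF L N - algebraMap L (FL L N) c)).subset ?_
  rintro v ⟨hv, hc⟩
  have h1 := val_spec v (ord_fr_nonneg hv (i0 L N))
  have h2 : val v (fr L N (i0 L N)) = c := hc
  rw [h2] at h1
  rcases h1 with h1 | h1
  · exfalso
    apply transcendental_tF (L := L) (N := N)
    have h3 : tF L N = algebraMap L (FL L N) c := h1
    rw [h3]
    exact isAlgebraic_algebraMap c
  · exact h1.ne'

/-- `t` is surjective (`t - c` is transcendental, so it has a zero: `LBasic.exists_ord_pos`; this zero is not `∞`, where `t` has a pole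
or, at any rate, `∞` can be excluded because `t` has a pole somewhere and its only possible pole is `∞`). -/
theorem exists_tv_eq (c : L) : ∃ v : PlL L N, v ≠ infP L N ∧ tv L N v = c := by
  have htr : Transcendental L (tF L N - algebraMap L (FL L N) c) :=
    Fermat.Agent.S24.FF.transcendental_sub_algebraMap L transcendental_tF c
  obtain ⟨v, hv⟩ := LBasic.exists_ord_pos htr
  have hne : tF L N - algebraMap L (FL L N) c ≠ 0 := Fermat.Agent.S24.FF.ne_zero_of_ord_ne_zero v hv.ne'
  refine ⟨v, ?_, val_eq_of (Or.inr hv)⟩
  rintro rfl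
  -- then `t - c` has no pole at all, so it is constant
  apply htr
  have hmem : tF L N - algebraMap L (FL L N) c ∈ LSp (0 : DvL L N) := by
    right
    intro w
    rw [Finsupp.zero_apply, add_zero]
    by_cases hw : w = infP L N
    · rw [hw]; exact hv.le
    · have h1 : 0 ≤ w.ord (tF L N) := ord_fr_nonneg hw _
      have h2 := Fermat.Agent.S24.FF.mem_of_ord_nonneg w h1
      exact Fermat.Agent.S24.FF.ord_nonneg_of_mem w (sub_mem h2 (w.algebraMap_mem' c))
  obtain ⟨a, ha⟩ := mem_LSp_zero.1 hmem
  rw [ha]
  exact isAlgebraic_algebraMap a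

end Fermat.Agent.S17.G
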