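import Fermat.Agent.S17.G.TransOne

/-!
# S17 / G3 : `Γ(K)` is transitive on generic tuples of places of `F_ℂ`
-/

set_option autoImplicit false

open AlgebraicCurve ModularCurve IntermediateField

namespace Fermat.Agent.S17.G

open FF

variable {N : ℕ} [NeZero N]

/-- Induction on `n` (for all `K`): move `η 0` to `η' 0` by `σ₀ ∈ Γ(K)`; then `σ₀ η ∘ succ` and `η' ∘ succ` are generic over the countable field
`fldP K (η' 0)` (`IsGen.gal`, `IsGen.tail`); an element of `Γ(fldP K (η' 0))` lies in `Γ(K)` and fixes `η' 0`. -/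
theorem exists_aut_tuple (K : IntermediateField ℚ ℂ) [Countable K] {n : ℕ} {η η' : Fin n → PlL ℂ N}
    (h : IsGen K η) (h' : IsGen K η') :
    ∃ σ ∈ K.fixingSubgroup, ∀ i, gal ℂ N σ • η i = η' i := by
  induction n generalizing K with
  | zero => exact ⟨1, one_mem _, fun i => i.elim0⟩
  | succ n ih =>
    obtain ⟨σ₀, hσ₀, h0⟩ := exists_aut_place K (h.1 0) (h'.1 0) h.transcendental_zero
      h'.transcendental_zero
    have h1 : IsGen K (fun i => gal ℂ N σ₀ • η i) := h.gal hσ₀
    have h2 := h1.tail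
    have h3 := h'.tail
    simp only [h0] at h2
    have : Countable (fldP K (η' 0)) := countable_fldP K _
    obtain ⟨σ₁, hσ₁, h4⟩ := ih (fldP K (η' 0)) h2 h3
    refine ⟨σ₁ * σ₀, mul_mem (IntermediateField.fixingSubgroup_le (le_fldP K _) hσ₁) hσ₀, ?_⟩
    intro i
    have hmul : gal ℂ N (σ₁ * σ₀) = gal ℂ N σ₁ * gal ℂ N σ₀ := map_mul _ _ _
    rw [hmul, mul_smul]
    refine Fin.cases ?_ (fun j => ?_) i
    · rw [h0]
      exact gal_smul_eq_of_mem_fldP (h'.1 0) hσ₁
    · exact h4 j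

end Fermat.Agent.S17.G
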