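import Fermat.Agent.S17.G.OrbCls
import Fermat.Agent.S17.G.EllGen
import Fermat.Agent.S17.G.Trans

/-!
# S17 / G5, G6 : classes "interalgebraic" with a generic class are generic; `2`-divisibility of the `Γ(K)`-fixed classes of `J(ℂ)`
-/

set_option autoImplicit false

open AlgebraicCurve ModularCurve IntermediateField

namespace Fermat.Agent.S17.G

open FF

variable {N : ℕ} [NeZero N]

/-- G5.  `w = ctup Q`, `Q : Fin d → _`, `d ≤ g` (`exists_ctup_min`).  `K_w := fldT K Q` is countable and `Γ(K_w)` fixes `w`, so (by `hw`) the `Γ(K_w)`-orbit of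
`u = ctup η` lies in `u + J[2]`, which is finite.  As `l(tdiv η) = 1` (`ell_tdiv_of_isGen`), every `η i` has a finite `Γ(K_w)`-orbit (`finite_orbP_of_finite_orbJ`),
so `tv (η i)` is algebraic over `K_w` (O2), hence over `K(tv (Q l) : l)` ((O3), `isAlgebraic_of_adj`).  `exchange` gives `d = g` and the independence of the `tv (Q l)`. -/
theorem exists_isGen_rep (h2 : {y : JL ℂ N | 2 • y = 0}.Finite)
    (K : IntermediateField ℚ ℂ) [Countable K]
    (η : Fin (genus ℂ (FL ℂ N)) → PlL ℂ N) (hη : IsGen K η) (w : JL ℂ N)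
    (hw : ∀ σ ∈ K.fixingSubgroup, σ • w = w → 2 • (σ • ctup ℂ N η - ctup ℂ N η) = 0) :
    ∃ η' : Fin (genus ℂ (FL ℂ N)) → PlL ℂ N, IsGen K η' ∧ w = ctup ℂ N η' := by
  obtain ⟨d, Q, hdg, hQ, hwQ, -⟩ := exists_ctup_min w
  haveI : Countable (fldT K Q) := countable_fldT K Q
  -- `Γ(K_w)` fixes `w`
  have hfix : ∀ σ ∈ (fldT K Q).fixingSubgroup, σ • w = w := by
    intro σ hσ
    rw [hwQ, smul_ctup]
    congr 1
    funext i
    exact gal_smul_eq_of_mem_fldT hQ hσ i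
  -- the orbit of `u` is finite
  have hfin : (orbJ (fldT K Q) (ctup ℂ N η)).Finite := by
    refine (h2.image (fun y => y + ctup ℂ N η)).subset ?_
    rintro _ ⟨σ, hσ, rfl⟩
    refine ⟨σ • ctup ℂ N η - ctup ℂ N η, ?_, by simp⟩
    exact hw σ (IntermediateField.fixingSubgroup_le (le_fldT K Q) hσ) (hfix σ hσ)
  have h1 : ell (tdiv η) = 1 := ell_tdiv_of_isGen K η hη
  -- `tv (η i)` is algebraic over `K_w`
  have halg1 : ∀ i, IsAlgebraic (fldT K Q) (tv ℂ N (η i)) := fun i =>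
    isAlgebraic_crdP_of_finite_orbP (fldT K Q) (hη.1 i)
      (finite_orbP_of_finite_orbJ (fldT K Q) η h1 hfin i) (i0 ℂ N)
  -- hence over `K(tv (Q l) : l)`
  have halg2 : ∀ i, IsAlgebraic (adj K (Set.range fun l => tv ℂ N (Q l))) (tv ℂ N (η i)) := by
    intro i
    refine isAlgebraic_of_adj (K := K) (le_adj _ _) (S := ⋃ l, Set.range (crdP ℂ N (Q l))) ?_
      (halg1 i)
    intro s hs
    obtain ⟨l, hl⟩ := Set.mem_iUnion.1 hs
    obtain ⟨j, rfl⟩ := hl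
    refine isAlgebraic_mono (adj_mono le_rfl ?_) (isAlgebraic_crdP_adj_tv K (hQ l) j)
    rintro _ rfl
    exact ⟨l, rfl⟩
  obtain ⟨rfl, hind⟩ := exchange K (fun i => tv ℂ N (η i)) (fun l => tv ℂ N (Q l)) hη.2 hdg halg2
  exact ⟨Q, ⟨hQ, hind⟩, hwQ⟩

/-- G6.  `u = ctup η` generic (`exists_isGen`).  `2u = ctup η₁`, `x + 2u = ctup η₂` with `η₁, η₂` generic (`exists_isGen_rep`); `σ ∈ Γ(K)` with `σ η₁ = η₂`
(`exists_aut_tuple`); then `σ (2u) = x + 2u`, i.e. `x = 2 (σ u - u)`. -/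
theorem exists_two_nsmul_eq_of_fixed (h2 : {y : JL ℂ N | 2 • y = 0}.Finite)
    (K : IntermediateField ℚ ℂ) [Countable K] (x : JL ℂ N) (hx : ∀ σ ∈ K.fixingSubgroup, σ • x = x) :
    ∃ y : JL ℂ N, 2 • y = x := by
  obtain ⟨η, hη⟩ := exists_isGen (N := N) K (genus ℂ (FL ℂ N))
  have hs2 : ∀ (σ : ℂ ≃ₐ[ℚ] ℂ) (z : JL ℂ N), σ • (2 • z) = 2 • (σ • z) := by
    intro σ z
    rw [two_nsmul, two_nsmul, smul_add]
  obtain ⟨η₁, hη₁, h₁⟩ := exists_isGen_rep h2 K η hη (2 • ctup ℂ N η) (by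
    intro σ _ h
    rw [hs2] at h
    rw [nsmul_sub, h, sub_self])
  obtain ⟨η₂, hη₂, h₂⟩ := exists_isGen_rep h2 K η hη (x + 2 • ctup ℂ N η) (by
    intro σ hσ h
    rw [smul_add, hx σ hσ, hs2] at h
    rw [nsmul_sub, add_left_cancel h, sub_self])
  obtain ⟨σ, hσ, hση⟩ := exists_aut_tuple K hη₁ hη₂
  refine ⟨σ • ctup ℂ N η - ctup ℂ N η, ?_⟩
  have h3 : σ • (2 • ctup ℂ N η) = x + 2 • ctup ℂ N η := by
    rw [h₂, h₁, smul_ctup]
    congr 1
    funext i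
    exact hση i
  rw [hs2] at h3
  rw [nsmul_sub, h3, add_sub_cancel_right]

end Fermat.Agent.S17.G
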