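import Fermat.Agent.S17.G.Trdeg
import Fermat.Agent.S17.G.Exchange
import Fermat.Agent.S17.G.Cls

/-!
# S17 / G : orbits of places of `F_ℂ` under `Γ(K) = Aut(ℂ/K)`, `K` a countable subfield of `ℂ`
-/

set_option autoImplicit false

open AlgebraicCurve ModularCurve IntermediateField

namespace Fermat.Agent.S17.G

open FF

variable {N : ℕ} [NeZero N]

/-- the orbit of a place under `Γ(K)` -/
def orbP (K : IntermediateField ℚ ℂ) (v : PlL ℂ N) : Set (PlL ℂ N) :=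
  {w | ∃ σ ∈ K.fixingSubgroup, gal ℂ N σ • v = w}

/-- `K(v)`, the field generated by the coordinates of `v` -/
noncomputable def fldP (K : IntermediateField ℚ ℂ) (v : PlL ℂ N) : IntermediateField ℚ ℂ :=
  adj K (Set.range (crdP ℂ N v))

/-- `K(v_1, …, v_n)` -/
noncomputable def fldT (K : IntermediateField ℚ ℂ) {n : ℕ} (v : Fin n → PlL ℂ N) : IntermediateField ℚ ℂ :=
  adj K (⋃ i, Set.range (crdP ℂ N (v i)))

theorem countable_fldP (K : IntermediateField ℚ ℂ) [Countable K] (v : PlL ℂ N) : Countable (fldP K v) :=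
  countable_adj K _ (Set.countable_range _)

theorem countable_fldT (K : IntermediateField ℚ ℂ) [Countable K] {n : ℕ} (v : Fin n → PlL ℂ N) :
    Countable (fldT K v) :=
  countable_adj K _ (Set.countable_iUnion fun _ => Set.countable_range _)

theorem le_fldP (K : IntermediateField ℚ ℂ) (v : PlL ℂ N) : K ≤ fldP K v := le_adj _ _

theorem le_fldT (K : IntermediateField ℚ ℂ) {n : ℕ} (v : Fin n → PlL ℂ N) : K ≤ fldT K v := le_adj _ _

/-- (O1) -/
theorem gal_smul_eq_of_mem_fldP {K : IntermediateField ℚ ℂ} {v : PlL ℂ N} (hv : v ≠ infP ℂ N)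
    {σ : ℂ ≃ₐ[ℚ] ℂ} (hσ : σ ∈ (fldP K v).fixingSubgroup) : gal ℂ N σ • v = v :=
  (gal_smul_eq_self_iff σ hv).2 fun i =>
    apply_eq_of_mem_fixingSubgroup hσ (subset_adj _ _ ⟨i, rfl⟩)

theorem gal_smul_eq_of_mem_fldT {K : IntermediateField ℚ ℂ} {n : ℕ} {v : Fin n → PlL ℂ N}
    (hv : ∀ i, v i ≠ infP ℂ N) {σ : ℂ ≃ₐ[ℚ] ℂ} (hσ : σ ∈ (fldT K v).fixingSubgroup) (i : Fin n) :
    gal ℂ N σ • v i = v i :=
  (gal_smul_eq_self_iff σ (hv i)).2 fun j =>
    apply_eq_of_mem_fixingSubgroup hσ (subset_adj _ _ (Set.mem_iUnion.2 ⟨i, ⟨j, rfl⟩⟩))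

/-- (O2) a place with finite orbit has algebraic coordinates -/
theorem isAlgebraic_crdP_of_finite_orbP (K : IntermediateField ℚ ℂ) [Countable K] {v : PlL ℂ N}
    (hv : v ≠ infP ℂ N) (h : (orbP K v).Finite) (i : Fin (nfr ℂ N)) : IsAlgebraic K (crdP ℂ N v i) := by
  apply isAlgebraic_of_finite_orbit
  refine (h.image (fun w => crdP ℂ N w i)).subset ?_
  rintro b ⟨σ, hσ, rfl⟩
  exact ⟨gal ℂ N σ • v, ⟨σ, hσ, rfl⟩, crdP_gal σ hv i⟩

/-- (O3) all coordinates are algebraic over `K(t(v))`: the `Γ(K(t(v)))`-orbit of `v` lies in a fibre of `t`. -/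
theorem isAlgebraic_crdP_adj_tv (K : IntermediateField ℚ ℂ) [Countable K] {v : PlL ℂ N}
    (hv : v ≠ infP ℂ N) (i : Fin (nfr ℂ N)) : IsAlgebraic (adj K {tv ℂ N v}) (crdP ℂ N v i) := by
  have : Countable (adj K {tv ℂ N v}) := countable_adj K _ (Set.countable_singleton _)
  refine isAlgebraic_crdP_of_finite_orbP _ hv ?_ i
  refine (finite_tv_eq (L := ℂ) (N := N) (tv ℂ N v)).subset ?_
  rintro w ⟨σ, hσ, rfl⟩
  refine ⟨gal_smul_ne_infP σ hv, ?_⟩
  rw [tv_gal σ hv]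
  exact apply_eq_of_mem_fixingSubgroup hσ (subset_adj _ _ rfl)

/-- (O4) -/
theorem infinite_orbP_of_transcendental (K : IntermediateField ℚ ℂ) [Countable K] {v : PlL ℂ N}
    (hv : v ≠ infP ℂ N) (h : Transcendental K (tv ℂ N v)) : (orbP K v).Infinite := by
  intro hfin
  exact h (isAlgebraic_crdP_of_finite_orbP K hv hfin _)

/-- a tuple of places is generic over `K` -/
def IsGen (K : IntermediateField ℚ ℂ) {n : ℕ} (η : Fin n → PlL ℂ N) : Prop :=
  (∀ i, η i ≠ infP ℂ N) ∧ AlgebraicIndependent K (fun i => tv ℂ N (η i))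

theorem IsGen.gal {K : IntermediateField ℚ ℂ} {n : ℕ} {η : Fin n → PlL ℂ N} (h : IsGen K η)
    {σ : ℂ ≃ₐ[ℚ] ℂ} (hσ : σ ∈ K.fixingSubgroup) : IsGen K (fun i => gal ℂ N σ • η i) := by
  refine ⟨fun i => gal_smul_ne_infP σ (h.1 i), ?_⟩
  have h1 := algebraicIndependent_aut K hσ _ h.2
  have h2 : (fun i => tv ℂ N (Fermat.Agent.S17.gal ℂ N σ • η i)) = fun i => σ (tv ℂ N (η i)) :=
    funext fun i => tv_gal σ (h.1 i)
  rw [h2]
  exact h1

theorem IsGen.transcendental_zero {K : IntermediateField ℚ ℂ} {n : ℕ} {η : Fin (n + 1) → PlL ℂ N}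
    (h : IsGen K η) : Transcendental K (tv ℂ N (η 0)) :=
  h.2.transcendental 0

/-- the tail of a generic tuple is generic over `K(η_0)` (`algebraicIndependent_adj_tail` + (O3)) -/
theorem IsGen.tail {K : IntermediateField ℚ ℂ} [Countable K] {n : ℕ} {η : Fin (n + 1) → PlL ℂ N}
    (h : IsGen K η) : IsGen (fldP K (η 0)) (fun i : Fin n => η i.succ) := by
  refine ⟨fun i => h.1 _, ?_⟩
  refine algebraicIndependent_adj_tail K (fun i => tv ℂ N (η i)) h.2 _ ?_
  rintro _ ⟨i, rfl⟩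
  exact isAlgebraic_crdP_adj_tv K (h.1 0) i

theorem exists_isGen (K : IntermediateField ℚ ℂ) [Countable K] (n : ℕ) :
    ∃ η : Fin n → PlL ℂ N, IsGen K η := by
  obtain ⟨a, ha⟩ := exists_algebraicIndependent K n
  choose η hη using fun i => exists_tv_eq (L := ℂ) (N := N) (a i)
  refine ⟨η, fun i => (hη i).1, ?_⟩
  have h2 : (fun i => tv ℂ N (η i)) = a := funext fun i => (hη i).2
  rw [h2]
  exact ha

end Fermat.Agent.S17.G
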