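import Fermat.Agent.S17.G.Orbit

/-!
# S17 / G3 : `Γ(K)` is transitive on the places of `F_ℂ` which are generic over `K`
-/

set_option autoImplicit false
set_option synthInstance.maxHeartbeats 400000

open AlgebraicCurve ModularCurve IntermediateField

namespace Fermat.Agent.S17.G

open FF

variable {N : ℕ} [NeZero N]

namespace TransOne

/-- the ring hom `K[X_i] → F_ℂ`, `X_i ↦ fr_i` -/
noncomputable def Phi (N : ℕ) [NeZero N] (K : IntermediateField ℚ ℂ) :
    MvPolynomial (Fin (nfr ℂ N)) K →+* FL ℂ N :=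
  MvPolynomial.eval₂Hom ((algebraMap ℂ (FL ℂ N)).comp (algebraMap K ℂ)) (fr ℂ N)

theorem Phi_C (K : IntermediateField ℚ ℂ) (a : K) :
    Phi N K (MvPolynomial.C a) = algebraMap ℂ (FL ℂ N) (a : ℂ) := by
  simp [Phi]

theorem Phi_X (K : IntermediateField ℚ ℂ) (i : Fin (nfr ℂ N)) :
    Phi N K (MvPolynomial.X i) = fr ℂ N i := by
  simp [Phi]

/-- the elements of `R` are regular outside `∞` -/
theorem ord_Phi_nonneg (K : IntermediateField ℚ ℂ) {η : PlL ℂ N} (h : η ≠ infP ℂ N)
    (p : MvPolynomial (Fin (nfr ℂ N)) K) : 0 ≤ η.ord (Phi N K p) := by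
  apply Fermat.Agent.S24.FF.ord_nonneg_of_mem
  induction p using MvPolynomial.induction_on with
  | C a => rw [Phi_C]; exact η.algebraMap_mem' _
  | add p q hp hq => rw [map_add]; exact add_mem hp hq
  | mul_X p i hp =>
    rw [map_mul, Phi_X]
    exact mul_mem hp (Fermat.Agent.S24.FF.mem_of_ord_nonneg η (ord_fr_nonneg h i))

/-- the elements of `R` are fixed by `Γ(K)` -/
theorem gal_smul_Phi (K : IntermediateField ℚ ℂ) {σ : ℂ ≃ₐ[ℚ] ℂ} (hσ : σ ∈ K.fixingSubgroup)
    (p : MvPolynomial (Fin (nfr ℂ N)) K) : gal ℂ N σ • Phi N K p = Phi N K p := by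
  induction p using MvPolynomial.induction_on with
  | C a =>
    rw [Phi_C, SemilinearAut.smul_algebraMap]
    congr 1
    exact apply_eq_of_mem_fixingSubgroup hσ a.2
  | add p q hp hq => rw [map_add, smul_add, hp, hq]
  | mul_X p i hp => rw [map_mul, smul_mul', hp, Phi_X, gal_smul_fr]

/-- evaluation at `η` on `R = range Phi` -/
noncomputable def evR (K : IntermediateField ℚ ℂ) {η : PlL ℂ N} (h : η ≠ infP ℂ N) :
    (Phi N K).range →+* ℂ where
  toFun f := val η (f : FL ℂ N)
  map_one' := by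
    have : ((1 : (Phi N K).range) : FL ℂ N) = algebraMap ℂ (FL ℂ N) 1 := by simp
    rw [this, val_algebraMap]
  map_zero' := by
    have : ((0 : (Phi N K).range) : FL ℂ N) = algebraMap ℂ (FL ℂ N) 0 := by simp
    rw [this, val_algebraMap]
  map_mul' := by
    rintro ⟨_, p, rfl⟩ ⟨_, p', rfl⟩
    exact val_mul η (ord_Phi_nonneg K h p) (ord_Phi_nonneg K h p')
  map_add' := by
    rintro ⟨_, p, rfl⟩ ⟨_, p', rfl⟩
    exact val_add η (ord_Phi_nonneg K h p) (ord_Phi_nonneg K h p')

theorem evR_apply (K : IntermediateField ℚ ℂ) {η : PlL ℂ N} (h : η ≠ infP ℂ N)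
    (f : (Phi N K).range) : evR K h f = val η (f : FL ℂ N) := rfl

theorem evR_injective (K : IntermediateField ℚ ℂ) [Countable K] {η : PlL ℂ N} (h : η ≠ infP ℂ N)
    (ht : Transcendental K (tv ℂ N η)) : Function.Injective (evR K h) := by
  rw [injective_iff_map_eq_zero]
  rintro ⟨_, p, rfl⟩ hp
  rw [evR_apply] at hp
  change val η (Phi N K p) = 0 at hp
  by_contra hne
  have hne' : Phi N K p ≠ 0 := fun h0 => hne (Subtype.ext h0)
  apply infinite_orbP_of_transcendental K h ht
  refine (finite_ord_ne_zero (K := ℂ) (Phi N K p)).subset ?_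
  rintro w ⟨σ, hσ, rfl⟩
  have h1 := val_smul_semilinear (gal ℂ N σ) η (ord_Phi_nonneg K h p)
  rw [gal_smul_Phi K hσ, hp, map_zero] at h1
  have h2 := (val_eq_zero_iff (gal ℂ N σ • η)
    (ord_Phi_nonneg K (gal_smul_ne_infP σ h) p)).mp h1
  exact (h2.resolve_left hne').ne'

theorem countable_range (K : IntermediateField ℚ ℂ) [Countable K] : Countable (Phi N K).range := by
  have : Countable (MvPolynomial (Fin (nfr ℂ N)) K) := by
    rw [← Cardinal.mk_le_aleph0_iff]
    refine (MvPolynomial.cardinalMk_le_max).trans ?_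
    simp
  exact (Phi N K).rangeRestrict_surjective.countable

end TransOne

open TransOne in
/-- One point.  `R := Algebra.adjoin K (Set.range (fr ℂ N)) ⊆ F_ℂ` (a countable domain: image of `MvPolynomial (Fin _) K`);
all elements of `R` are fixed by `Γ(K)` and regular outside `∞`.  `val η : R → ℂ` is an injective ring hom:
if `0 ≠ f ∈ R` vanishes at `η`, it vanishes on the whole orbit `orbP K η`, which is infinite (O4), but `f` has finitely many zeros.
Same for `η'`.  `exists_algEquiv_complex` gives `σ` with `σ (f(η)) = f(η')` for `f ∈ R`: `σ` fixes `K` (constants) and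
`crdP (σ η) = σ (crdP η) = crdP η'`, so `σ η = η'` by `crdP_injective`. -/
theorem exists_aut_place (K : IntermediateField ℚ ℂ) [Countable K] {η η' : PlL ℂ N}
    (h : η ≠ infP ℂ N) (h' : η' ≠ infP ℂ N)
    (ht : Transcendental K (tv ℂ N η)) (ht' : Transcendental K (tv ℂ N η')) :
    ∃ σ ∈ K.fixingSubgroup, gal ℂ N σ • η = η' := by
  have := countable_range (N := N) K
  obtain ⟨σ, hσ⟩ := exists_algEquiv_complex (evR K h) (evR K h')
    (evR_injective K h ht) (evR_injective K h' ht')
  refine ⟨σ, mem_fixingSubgroup_of_forall fun a ha => ?_, ?_⟩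
  · have h1 := hσ ⟨_, MvPolynomial.C (⟨a, ha⟩ : K), rfl⟩
    rw [evR_apply, evR_apply] at h1
    simp only [Phi_C, val_algebraMap] at h1
    exact h1
  · apply crdP_injective (gal_smul_ne_infP σ h) h'
    funext i
    rw [crdP_gal σ h]
    have h1 := hσ ⟨_, MvPolynomial.X i, rfl⟩
    rw [evR_apply, evR_apply] at h1
    simp only [Phi_X] at h1
    exact h1

end Fermat.Agent.S17.G
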