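import Fermat.Agent.S17.G.Aut

/-!
# S17 / G2 : algebraic independence over countable subfields of `ℂ` (pure field theory)
-/

set_option autoImplicit false

open IntermediateField

namespace Fermat.Agent.S17.G

namespace Trdeg

/-- a ring hom `A → B` compatible with the structure maps to `C`, when the image of `A` lies in the image of `B`. -/
theorem exists_tower {A B C : Type*} [CommRing A] [CommRing B] [CommRing C] [Algebra A C] [Algebra B C]
    (hB : Function.Injective (algebraMap B C))
    (h : ∀ a : A, algebraMap A C a ∈ Set.range (algebraMap B C)) :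
    ∃ f : A →+* B, ∀ a, algebraMap B C (f a) = algebraMap A C a := by
  choose f hf using h
  refine ⟨{ toFun := f, map_one' := ?_, map_mul' := ?_, map_zero' := ?_, map_add' := ?_ }, hf⟩
  · apply hB; rw [hf]; simp
  · intro x y; apply hB; rw [hf, map_mul, map_mul, hf, hf]
  · apply hB; rw [hf]; simp
  · intro x y; apply hB; rw [hf, map_add, map_add, hf, hf]

theorem isAlgebraic_of_range {A B C : Type*} [CommRing A] [CommRing B] [CommRing C] [Algebra A C] [Algebra B C]
    (hA : Function.Injective (algebraMap A C)) (hB : Function.Injective (algebraMap B C))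
    (h : ∀ a : A, algebraMap A C a ∈ Set.range (algebraMap B C)) {c : C} (hc : IsAlgebraic A c) :
    IsAlgebraic B c := by
  obtain ⟨f, hf⟩ := exists_tower hB h
  let _ : Algebra A B := f.toAlgebra
  have : IsScalarTower A B C := IsScalarTower.of_algebraMap_eq fun a => (hf a).symm
  refine hc.extendScalars ?_
  intro x y hxy
  apply hA
  have hxy' : f x = f y := hxy
  rw [← hf, ← hf, hxy']

theorem algebraicIndependent_of_range {A B C : Type*} [CommRing A] [CommRing B] [CommRing C] [Algebra A C] [Algebra B C]
    (hA : Function.Injective (algebraMap A C)) (hB : Function.Injective (algebraMap B C))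
    (h : ∀ a : A, algebraMap A C a ∈ Set.range (algebraMap B C)) {ι : Type*} {x : ι → C}
    (hx : AlgebraicIndependent B x) : AlgebraicIndependent A x := by
  obtain ⟨f, hf⟩ := exists_tower hB h
  let _ : Algebra A B := f.toAlgebra
  have : IsScalarTower A B C := IsScalarTower.of_algebraMap_eq fun a => (hf a).symm
  refine hx.restrictScalars ?_
  intro x y hxy
  apply hA
  have hxy' : f x = f y := hxy
  rw [← hf, ← hf, hxy']

/-- `adj K S` and `IntermediateField.adjoin K S` have the same elements -/
theorem mem_adj_iff (K : IntermediateField ℚ ℂ) (S : Set ℂ) (z : ℂ) :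
    z ∈ adj K S ↔ z ∈ IntermediateField.adjoin K S := by
  constructor
  · intro hz
    have hle : adj K S ≤ (IntermediateField.adjoin K S).restrictScalars ℚ := by
      refine adj_le_iff.2 ⟨fun x hx => ?_, fun s hs => ?_⟩
      · exact (IntermediateField.adjoin K S).algebraMap_mem ⟨x, hx⟩
      · exact IntermediateField.subset_adjoin K S hs
    exact hle hz
  · intro hz
    have hle : IntermediateField.adjoin K S ≤ IntermediateField.extendScalars (le_adj K S) := by
      rw [IntermediateField.adjoin_le_iff]
      intro s hs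
      exact subset_adj K S hs
    exact hle hz

theorem isAlgebraic_adj_iff (K : IntermediateField ℚ ℂ) (S : Set ℂ) (z : ℂ) :
    IsAlgebraic (adj K S) z ↔ IsAlgebraic (Algebra.adjoin K S) z := by
  rw [← IntermediateField.isAlgebraic_adjoin_iff]
  constructor
  · refine isAlgebraic_of_range Subtype.val_injective Subtype.val_injective ?_
    intro a
    exact ⟨⟨a.1, (mem_adj_iff K S _).1 a.2⟩, rfl⟩
  · refine isAlgebraic_of_range Subtype.val_injective Subtype.val_injective ?_
    intro a
    exact ⟨⟨a.1, (mem_adj_iff K S _).2 a.2⟩, rfl⟩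

end Trdeg

open Trdeg

theorem isAlgebraic_mono {K K' : IntermediateField ℚ ℂ} (hK : K ≤ K') {a : ℂ} (ha : IsAlgebraic K a) :
    IsAlgebraic K' a :=
  isAlgebraic_of_range Subtype.val_injective Subtype.val_injective
    (fun x => ⟨⟨x.1, hK x.2⟩, rfl⟩) ha

/-- transitivity of algebraicity in the form we use: if all elements of `S` are algebraic over `K'` (`K ≤ K'`) and `a` is algebraic over `K(S)`, then `a` is algebraic over `K'`. -/
theorem isAlgebraic_of_adj {K K' : IntermediateField ℚ ℂ} (hK : K ≤ K') {S : Set ℂ}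
    (hS : ∀ s ∈ S, IsAlgebraic K' s) {a : ℂ} (ha : IsAlgebraic (adj K S) a) : IsAlgebraic K' a := by
  have hle : adj K S ≤ (algebraicClosure K' ℂ).restrictScalars ℚ := by
    refine adj_le_iff.2 ⟨fun x hx => ?_, fun s hs => ?_⟩
    · exact (algebraicClosure K' ℂ).algebraMap_mem ⟨x, hK hx⟩
    · exact (mem_algebraicClosure_iff).2 (hS s hs)
  have h1 : IsAlgebraic (algebraicClosure K' ℂ) a :=
    isAlgebraic_of_range Subtype.val_injective Subtype.val_injective
      (fun x => ⟨⟨x.1, hle x.2⟩, rfl⟩) ha
  exact h1.restrictScalars K'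


/-- If `a_0, …, a_n` are algebraically independent over `K` and all elements of `S` are algebraic over `K(a_0)`, then `a_1, …, a_n` are
algebraically independent over `K(S)`. -/
theorem algebraicIndependent_adj_tail (K : IntermediateField ℚ ℂ) {n : ℕ} (a : Fin (n + 1) → ℂ)
    (ha : AlgebraicIndependent K a) (S : Set ℂ) (hS : ∀ s ∈ S, IsAlgebraic (adj K {a 0}) s) :
    AlgebraicIndependent (adj K S) (fun i : Fin n => a i.succ) := by
  have h1 : AlgebraicIndependent (Algebra.adjoin K (a '' {0})) (fun i : ({0}ᶜ : Set (Fin (n + 1))) => a i) :=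
    ha.adjoin_of_disjoint (Set.disjoint_compl_right_iff_subset.mpr le_rfl)
  have h2 : AlgebraicIndependent (Algebra.adjoin K (a '' {0})) (fun i : Fin n => a i.succ) :=
    h1.comp (fun i : Fin n => (⟨i.succ, by simp [Fin.succ_ne_zero]⟩ : ({0}ᶜ : Set (Fin (n + 1)))))
      (fun i j hij => Fin.succ_injective _ (congrArg Subtype.val hij))
  rw [Set.image_singleton, ← IntermediateField.algebraicIndependent_adjoin_iff] at h2
  have h3 := h2.algebraicClosure
  have hle : adj K S ≤ (algebraicClosure (IntermediateField.adjoin K {a 0}) ℂ).restrictScalars ℚ := by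
    refine adj_le_iff.2 ⟨fun x hx => ?_, fun s hs => ?_⟩
    · exact (algebraicClosure (IntermediateField.adjoin K {a 0}) ℂ).algebraMap_mem
        ⟨x, (IntermediateField.adjoin K {a 0}).algebraMap_mem ⟨x, hx⟩⟩
    · refine (mem_algebraicClosure_iff).2 ?_
      exact isAlgebraic_of_range Subtype.val_injective Subtype.val_injective
        (fun x => ⟨⟨x.1, (mem_adj_iff K _ _).1 x.2⟩, rfl⟩) (hS s hs)
  exact algebraicIndependent_of_range Subtype.val_injective Subtype.val_injective
    (fun x => ⟨⟨x.1, hle x.2⟩, rfl⟩) h3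

theorem algebraicIndependent_aut (K : IntermediateField ℚ ℂ) {σ : ℂ ≃ₐ[ℚ] ℂ} (hσ : σ ∈ K.fixingSubgroup)
    {ι : Type*} (a : ι → ℂ) (ha : AlgebraicIndependent K a) :
    AlgebraicIndependent K (fun i => σ (a i)) := by
  let f : ℂ →ₐ[K] ℂ :=
    { (σ : ℂ →+* ℂ) with
      commutes' := fun x => apply_eq_of_mem_fixingSubgroup hσ x.2 }
  exact ha.map' (f := f) σ.injective

/-- `ℂ` has infinite transcendence degree over a countable field. -/
theorem exists_algebraicIndependent (K : IntermediateField ℚ ℂ) [Countable K] (n : ℕ) :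
    ∃ a : Fin n → ℂ, AlgebraicIndependent K a := by
  obtain ⟨s, hs⟩ := exists_isTranscendenceBasis K ℂ
  have hK : Cardinal.aleph0 < Cardinal.mk ℂ := by
    rw [Cardinal.mk_complex]; exact Cardinal.aleph0_lt_continuum
  have h1 : Cardinal.mk ℂ = Cardinal.mk s :=
    IsAlgClosed.cardinal_eq_cardinal_transcendence_basis_of_aleph0_lt' _ hs Cardinal.mk_le_aleph0 hK
  have hinf : Infinite s := by
    rw [Cardinal.infinite_iff, ← h1]
    exact hK.le
  let e : Fin n ↪ s := (⟨Fin.val, Fin.val_injective⟩ : Fin n ↪ ℕ).trans (Infinite.natEmbedding s)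
  exact ⟨fun i => (e i : ℂ), hs.1.comp e e.injective⟩

end Fermat.Agent.S17.G
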